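import Fermat.Agent.Two.Patch.EigenPoint
import Fermat.Agent.Two.Patch.ModTwo
import Fermat.Agent.GaloisReps.CoeffExt

/-!
# A congruent point from a bound modulo two

Let finitely many distinct characters of a finite `ℤ₂`-algebra `J` be at least as many as the
dimension of `J / 2`. Then `J` embeds into the product of their targets, and a point modulo a high
power of two is congruent to one of them in every valuation ring over two.
-/

set_option autoImplicit false
set_option linter.style.haveILetI false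
set_option synthInstance.maxHeartbeats 400000

noncomputable section

namespace Fermat.Agent.Two.Congr

open Module IsLocalRing

variable [Fact (Nat.Prime 2)]

theorem injective_algebraMap_of_charZero (O : Type) [CommRing O] [IsDomain O] [CharZero O]
    [Algebra ℤ_[2] O] : Function.Injective (algebraMap ℤ_[2] O) := by
  rw [RingHom.injective_iff_ker_eq_bot]
  by_contra h
  obtain ⟨k, hk⟩ := PadicInt.ideal_eq_span_pow_p h
  have : ((2 : ℕ) : ℤ_[2]) ^ k ∈ RingHom.ker (algebraMap ℤ_[2] O) :=
    hk ▸ Ideal.mem_span_singleton_self _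
  rw [RingHom.mem_ker, map_pow, map_natCast] at this
  exact pow_ne_zero k (Nat.cast_ne_zero.2 two_ne_zero) this

/-- The valuation of an element killed by a point modulo `2 ^ m`. -/
theorem exists_mul_eq_of_point {R : Type} [CommRing R] [IsDomain R] [Algebra ℤ_[2] R]
    [Module.Finite ℤ_[2] R] [CharZero R] {c n m : ℕ} (hc : Module.finrank ℤ_[2] R ≤ c)
    (hnm : n * c < m) (x : R →ₐ[ℤ_[2]] ℤ_[2] ⧸ Ideal.span {(2 : ℤ_[2]) ^ m}) (j : R →+* ℂ)
    (hj : Function.Injective j) (A : ValuationSubring ℂ) (hA : ∀ r, j r ∈ A) {y : R}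
    (hy : x y = 0) : ∃ e ∈ A, j y = (2 : ℂ) ^ n * e := by
  classical
  have hinj := injective_algebraMap_of_charZero R
  have : Module.IsTorsionFree ℤ_[2] R := Module.isTorsionFree_iff_algebraMap_injective.mpr hinj
  let K := FractionRing R
  have : FaithfulSMul ℤ_[2] K := (faithfulSMul_iff_algebraMap_injective _ _).mpr (by
    rw [IsScalarTower.algebraMap_eq ℤ_[2] R K, RingHom.coe_comp]
    exact (IsFractionRing.injective R K).comp hinj)
  let : Algebra (FractionRing ℤ_[2]) K := FractionRing.liftAlgebra ℤ_[2] K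
  obtain ⟨hdvr, hfin, -⟩ := GaloisReps.exists_integralClosure_dvr ℤ_[2] K
  set D := integralClosure ℤ_[2] K
  let ι : R →ₐ[ℤ_[2]] D :=
    (IsScalarTower.toAlgHom ℤ_[2] R K).codRestrict _ fun r =>
      ((Algebra.IsIntegral.isIntegral r : IsIntegral ℤ_[2] r)).map (IsScalarTower.toAlgHom ℤ_[2] R K)
  have hι : Function.Injective ι := fun a b h =>
    IsFractionRing.injective R K (congrArg Subtype.val h)
  -- the values on `D` stay in `A`
  let jK : K →+* ℂ := IsFractionRing.lift hj
  have hjK : ∀ r, jK (algebraMap R K r) = j r := IsFractionRing.lift_algebraMap hj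
  have hD : ∀ d : D, jK (d : K) ∈ A := by
    intro d
    obtain ⟨q, hq, hq0⟩ := d.2
    let g : ℤ_[2] →+* A := (j.comp (algebraMap ℤ_[2] R)).codRestrict A.toSubring fun t => hA _
    have hint : IsIntegral A (jK (d : K)) := by
      refine ⟨q.map g, hq.map _, ?_⟩
      rw [Polynomial.eval₂_map]
      have e : (algebraMap A ℂ).comp g = jK.comp (algebraMap ℤ_[2] K) := RingHom.ext fun t => by
        show j (algebraMap ℤ_[2] R t) = jK (algebraMap ℤ_[2] K t)
        rw [IsScalarTower.algebraMap_apply ℤ_[2] R K, hjK]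
      rw [e, ← Polynomial.hom_eval₂, hq0, map_zero]
    obtain ⟨a, ha⟩ := IsIntegrallyClosed.isIntegral_iff.mp hint
    rw [← ha]
    exact a.2
  rcases ValuationRing.dvd_total (R := D) (((2 : ℕ) : D) ^ n) (ι y) with ⟨d, hd⟩ | hdvd
  · refine ⟨jK (d : K), hD d, ?_⟩
    have e : algebraMap R K y = ((2 : ℕ) : K) ^ n * (d : K) :=
      (congrArg Subtype.val hd).trans (by
        rw [Subalgebra.coe_mul, Subalgebra.coe_pow, show (((2 : ℕ) : D) : K) = ((2 : ℕ) : K) from
          map_natCast D.val 2])
    rw [← hjK, e, map_mul, map_pow, map_natCast, Nat.cast_ofNat]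
  -- otherwise the exponent bound fails
  exfalso
  obtain ⟨s, hs⟩ := hdvd
  letI : Algebra R D := ι.toRingHom.toAlgebra
  have : IsScalarTower ℤ_[2] R D := IsScalarTower.of_algebraMap_eq fun t => (ι.commutes t).symm
  have : Module.IsTorsionFree ℤ_[2] D :=
    Module.isTorsionFree_iff_algebraMap_injective.mpr fun a b h => hinj (hι (by
      rw [ι.commutes, ι.commutes]; exact h))
  have : Module.Free ℤ_[2] D := Module.free_of_finite_type_torsion_free'
  set b := Module.finBasis ℤ_[2] D
  have hspan : Submodule.span R (Set.range b) = ⊤ := by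
    refine eq_top_iff.2 fun q _ => ?_
    rw [← b.sum_repr q]
    exact sum_mem fun k _ => by
      rw [← IsScalarTower.algebraMap_smul R (b.repr q k)]
      exact Submodule.smul_mem _ _ (Submodule.subset_span ⟨k, rfl⟩)
  have hrank : Module.finrank ℤ_[2] D ≤ c := by
    refine le_trans ?_ hc
    obtain ⟨den, hden⟩ := IsLocalization.exist_integer_multiples_of_finite (nonZeroDivisors R)
      (fun k => (b k : K))
    choose u hu using hden
    let f : D →ₗ[ℤ_[2]] R := b.constr ℤ_[2] u
    have hf : ∀ q : D, algebraMap R K (f q) = algebraMap R K den * (q : K) := by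
      intro q
      let L₁ : D →ₗ[ℤ_[2]] K := (IsScalarTower.toAlgHom ℤ_[2] R K).toLinearMap.comp f
      let L₂ : D →ₗ[ℤ_[2]] K :=
        (LinearMap.mulLeft ℤ_[2] (algebraMap R K den)).comp D.val.toLinearMap
      refine LinearMap.congr_fun (f := L₁) (g := L₂) (b.ext fun k => ?_) q
      show algebraMap R K (f (b k)) = algebraMap R K den * (b k : K)
      rw [b.constr_basis, hu, Algebra.smul_def]
    refine LinearMap.finrank_le_finrank_of_injective (f := f) ((injective_iff_map_eq_zero f).2
      fun q hq => Subtype.ext ?_)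
    have := hf q
    rw [hq, map_zero, eq_comm, mul_eq_zero] at this
    exact this.resolve_left fun h0 =>
      nonZeroDivisors.ne_zero den.2 (IsFractionRing.injective R K (h0.trans (map_zero _).symm))
  have hm := Patch.le_mul_of_smul_le (O := ℤ_[2]) (R := R) (Q := D) b hspan
    (fun a ha => hι (by
      have h1 := ha 1
      rw [Algebra.smul_def, mul_one] at h1
      rw [map_zero]; exact h1))
    (PadicInt.prime_p (p := 2)).irreducible (m := m) (j := n)
    ((x : R →+* ℤ_[2] ⧸ Ideal.span {(2 : ℤ_[2]) ^ m}))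
    (fun t => by rw [RingHom.coe_coe, AlgHom.commutes]; rfl) (fun q => ?_)
  · exact absurd (hm.trans (Nat.mul_le_mul_left n hrank)) (not_le.2 hnm)
  · have e : algebraMap ℤ_[2] R (((2 : ℕ) : ℤ_[2]) ^ n) • q = y • (s * q) := by
      rw [Algebra.smul_def, Algebra.smul_def, ← mul_assoc]
      congr 1
      show ι (algebraMap ℤ_[2] R _) = ι y * s
      rw [← hs, map_pow, map_natCast, map_pow, map_natCast]
    rw [e]
    exact Submodule.smul_mem_smul (RingHom.mem_ker.2 hy) Submodule.mem_top

/-- **The congruent character.** -/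
theorem exists_congr_character {J O : Type} [CommRing J] [Algebra ℤ_[2] J] [Module.Finite ℤ_[2] J]
    [CommRing O] [IsDomain O] [CharZero O] [Algebra ℤ_[2] O] {ι : Type} [Finite ι]
    (pr : ι → J →ₐ[ℤ_[2]] O) (hpr : Function.Injective pr) {c : ℕ} (hc : 0 < c)
    (hfin : Finite (J ⧸ Ideal.span {(2 : J)}))
    (hJ : Nat.card (J ⧸ Ideal.span {(2 : J)}) ≤ 2 ^ c) (hι : c ≤ Nat.card ι) {N m n : ℕ}
    (hN : c * c * m ≤ N) (hm : n * c < m)
    (x : J →ₐ[ℤ_[2]] ℤ_[2] ⧸ Ideal.span {(2 : ℤ_[2]) ^ N}) (j : O →+* ℂ)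
    (hj : Function.Injective j) (A : ValuationSubring ℂ) (hA : ∀ o, j o ∈ A) :
    ∃ i, ∀ (a : J) (b : ℤ_[2]), x a = Ideal.Quotient.mk _ b →
      ∃ e ∈ A, j (pr i a - algebraMap ℤ_[2] O b) = (2 : ℂ) ^ n * e := by
  classical
  have := Fintype.ofFinite ι
  have hinjO := injective_algebraMap_of_charZero O
  have : Module.IsTorsionFree ℤ_[2] O := Module.isTorsionFree_iff_algebraMap_injective.mpr hinjO
  have : IsNoetherian ℤ_[2] J := isNoetherian_of_isNoetherianRing_of_finite _ _
  let Φ : J →ₐ[ℤ_[2]] (ι → O) := AlgHom.pi pr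
  set T := Φ.range
  have hsurj : Function.Surjective Φ.rangeRestrict := Φ.rangeRestrict_surjective
  have hTfin : Module.Finite ℤ_[2] T := Module.Finite.of_surjective Φ.rangeRestrict.toLinearMap hsurj
  have htfT : Module.IsTorsionFree ℤ_[2] T :=
    (Subtype.val_injective).moduleIsTorsionFree T.val.toLinearMap fun _ _ => map_smul _ _ _
  have : Module.Free ℤ_[2] T := Module.free_of_finite_type_torsion_free'
  set b := Module.finBasis ℤ_[2] T
  set r := Module.finrank ℤ_[2] T
  -- at least as many basis elements as characters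
  let χ : ι → T →ₐ[ℤ_[2]] O := fun i => (Pi.evalAlgHom ℤ_[2] (fun _ : ι => O) i).comp T.val
  have hχ : Function.Injective χ := fun i i' h => hpr (AlgHom.ext fun a =>
    AlgHom.congr_fun h ⟨Φ a, a, rfl⟩)
  have hr : Fintype.card ι ≤ r := by
    have hli : LinearIndependent O (fun i => (χ i : T → O)) :=
      (linearIndependent_monoidHom T O).comp (fun i => ((χ i : T →+* O) : T →* O))
        fun i i' h => hχ (AlgHom.ext fun a => DFunLike.congr_fun h a)
    have hli' : LinearIndependent O (fun i => fun k => χ i (b k)) := by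
      refine Fintype.linearIndependent_iff.2 fun g hg => Fintype.linearIndependent_iff.1 hli g ?_
      let L : T →ₗ[ℤ_[2]] O := ∑ i, (LinearMap.mulLeft ℤ_[2] (g i)).comp (χ i).toLinearMap
      have hL : L = 0 := b.ext fun k => by
        have := congrFun hg k
        simpa [L, Finset.sum_apply] using this
      funext a
      simpa [L, Finset.sum_apply] using LinearMap.congr_fun hL a
    simpa using hli'.fintype_card_le_finrank
  -- comparison modulo two
  let red : J →+ (Fin r → ZMod 2) :=
    { toFun := fun a k => PadicInt.toZMod (b.repr (Φ.rangeRestrict a) k)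
      map_zero' := by ext k; simp
      map_add' := fun a a' => by ext k; simp }
  have hred : ∀ a ∈ Ideal.span {(2 : J)}, red a = 0 := fun a ha => by
    obtain ⟨u, rfl⟩ := Ideal.mem_span_singleton'.1 ha
    funext k
    show PadicInt.toZMod (b.repr (Φ.rangeRestrict (u * 2)) k) = 0
    rw [mul_two, map_add, map_add, Finsupp.add_apply, map_add]
    exact CharTwo.add_self_eq_zero _
  let red' : J ⧸ Ideal.span {(2 : J)} →+ (Fin r → ZMod 2) :=
    QuotientAddGroup.lift (Ideal.span {(2 : J)}).toAddSubgroup red hred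
  have hred_surj : Function.Surjective red' := fun v => by
    obtain ⟨a, ha⟩ := hsurj (b.equivFun.symm fun k => ((v k).val : ℤ_[2]))
    refine ⟨Ideal.Quotient.mk _ a, funext fun k => ?_⟩
    show PadicInt.toZMod (b.repr (Φ.rangeRestrict a) k) = v k
    rw [ha, ← b.equivFun_apply, LinearEquiv.apply_symm_apply, map_natCast, ZMod.natCast_zmod_val]
  have hcard : Nat.card (Fin r → ZMod 2) = 2 ^ r := by simp
  have hrc : r ≤ c := (Nat.pow_le_pow_iff_right one_lt_two).1
    (hcard ▸ (Nat.card_le_card_of_surjective _ hred_surj).trans hJ)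
  have hι' : c ≤ Fintype.card ι := by rwa [Nat.card_eq_fintype_card] at hι
  have hbij : Function.Bijective red' := by
    refine hred_surj.bijective_of_nat_card_le ?_
    rw [hcard]
    exact hJ.trans (Nat.pow_le_pow_right two_pos (hι'.trans hr))
  have hπ := (PadicInt.prime_p (p := 2)).irreducible
  have hΦ : Function.Injective Φ.rangeRestrict := by
    refine Patch.injective_of_modulo Φ.rangeRestrict.toLinearMap hπ fun a ⟨t, ht⟩ => ?_
    have h0 : red' (Ideal.Quotient.mk _ a) = 0 := funext fun k => by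
      show PadicInt.toZMod (b.repr (Φ.rangeRestrict a) k) = 0
      rw [show Φ.rangeRestrict a = _ from ht, map_smul, Finsupp.smul_apply, smul_eq_mul, map_mul,
        map_natCast, ZMod.natCast_self, zero_mul]
    obtain ⟨u, hu⟩ := Ideal.mem_span_singleton'.1
      (Ideal.Quotient.eq_zero_iff_mem.1 (hbij.1 (h0.trans (map_zero red').symm)))
    exact ⟨u, by rw [← hu, Algebra.smul_def, map_natCast, Nat.cast_ofNat, mul_comm]⟩
  have hΦ' : Function.Injective Φ := fun a a' h => hΦ (Subtype.ext h)
  have hrankJ : Module.finrank ℤ_[2] J ≤ c :=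
    le_trans (LinearMap.finrank_le_finrank_of_injective (f := Φ.rangeRestrict.toLinearMap) hΦ) hrc
  have : Nonempty ι := Fintype.card_pos_iff.1 (hc.trans_le hι')
  have hfree : Function.Injective (algebraMap ℤ_[2] J) := fun s t h => by
    obtain ⟨i⟩ := ‹Nonempty ι›
    exact hinjO (by rw [← (pr i).commutes, ← (pr i).commutes, h])
  have htfJ : Module.IsTorsionFree ℤ_[2] J :=
    hΦ'.moduleIsTorsionFree Φ.toLinearMap fun _ _ => map_smul _ _ _
  obtain ⟨P, hP, -, hPx⟩ := Patch.exists_prime_congr (O := ℤ_[2]) hfree htfJ hc hrankJ hπ hN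
    (by omega : 0 < m)
    (fun a ha => by
      have h0 : a = 0 := hΦ' (by rw [(ha.map Φ).eq_zero, map_zero])
      rw [h0, zero_pow hc.ne'])
    (x : J →+* ℤ_[2] ⧸ Ideal.span {(2 : ℤ_[2]) ^ N})
  obtain ⟨i, hi⟩ : ∃ i, RingHom.ker (pr i) ≤ P := by
    have hbot : (Finset.univ : Finset ι).inf (fun i => RingHom.ker (pr i)) ≤ P := fun a ha => by
      have h0 : a = 0 := hΦ' (by
        rw [map_zero]
        exact funext fun i => Finset.inf_le (f := fun i => RingHom.ker (pr i)) (Finset.mem_univ i) ha)
      rw [h0]; exact P.zero_mem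
    obtain ⟨i, -, hi⟩ := hP.inf_le'.1 hbot
    exact ⟨i, hi⟩
  refine ⟨i, fun a t hat => ?_⟩
  set I := RingHom.ker (pr i)
  have : I.IsPrime := RingHom.ker_isPrime _
  have hle : Ideal.span {(2 : ℤ_[2]) ^ N} ≤ Ideal.span {(2 : ℤ_[2]) ^ m} := by
    rw [Ideal.span_singleton_le_span_singleton]
    exact pow_dvd_pow _ ((Nat.le_mul_of_pos_left m (Nat.mul_pos hc hc)).trans hN)
  let xm : J →ₐ[ℤ_[2]] ℤ_[2] ⧸ Ideal.span {(2 : ℤ_[2]) ^ m} :=
    (Ideal.Quotient.factorₐ ℤ_[2] hle).comp x
  have hker : ∀ a ∈ I, xm a = 0 := fun a ha => by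
    obtain ⟨u, hu⟩ := Ideal.Quotient.mk_surjective (x a)
    have hd := hPx a (hi ha) u hu.symm
    show Ideal.Quotient.factorₐ ℤ_[2] hle (x a) = 0
    rw [← hu]
    exact Ideal.Quotient.eq_zero_iff_mem.2 (Ideal.mem_span_singleton.2 hd)
  let x' := Ideal.Quotient.liftₐ I xm hker
  let j' : J ⧸ I →+* ℂ := j.comp (RingHom.kerLift (pr i : J →+* O))
  have hj' : Function.Injective j' := hj.comp (RingHom.kerLift_injective _)
  have : CharZero (J ⧸ I) := ⟨fun s u h => Nat.cast_injective (R := ℂ) (by
    simpa using congrArg j' h)⟩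
  have hrank : Module.finrank ℤ_[2] (J ⧸ I) ≤ c :=
    le_trans (by
      have h := LinearMap.finrank_range_le (Ideal.Quotient.mkₐ ℤ_[2] I).toLinearMap
      rwa [LinearMap.range_eq_top.2 Ideal.Quotient.mk_surjective, finrank_top] at h) hrankJ
  obtain ⟨e, he, h⟩ := exists_mul_eq_of_point hrank hm x' j' hj' A (fun r => hA _)
    (y := Ideal.Quotient.mk I (a - algebraMap ℤ_[2] J t)) (by
      show xm (a - algebraMap ℤ_[2] J t) = 0
      rw [map_sub, AlgHom.commutes]
      show Ideal.Quotient.factorₐ ℤ_[2] hle (x a) - _ = 0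
      rw [hat]
      exact sub_self _)
  refine ⟨e, he, ?_⟩
  rw [← h]
  show j _ = j (pr i (a - algebraMap ℤ_[2] J t))
  rw [map_sub (pr i), AlgHom.commutes]

end Fermat.Agent.Two.Congr
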