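import Fermat.Agent.RT.Lift.Levels.JointAtP

/-!
# Flatness over a ring with finitely many jointly injective maps
-/

set_option autoImplicit false
set_option linter.style.haveILetI false

noncomputable section

namespace Fermat.Agent.Two.Congr

open IsLocalRing Fermat.Agent.Deform Fermat.Agent.RT

variable {p : ℕ}

/-- Flatness does not depend on the way the matrices are written. -/
theorem isFlatAt_toRep_congr {C : Type} [CommRing C] [IsLocalRing C] {r r' : Gal →* M2 C}
    (e : r = r') (hr : IsCont r) (hr' : IsCont r') (h : (toRep r hr).IsFlatAt p) :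
    (toRep r' hr').IsFlatAt p :=
  Assembly.isFlatAt_of_isEquiv (isEquiv_toRep_congr e hr hr') h

/-- **Flatness descends along a finite jointly injective family of finite local maps.** -/
theorem isFlatAt_toRep_of_family {A : Type} [CommRing A] [IsLocalRing A] [IsNoetherianRing A]
    {ι : Type} [Finite ι] [Nonempty ι] {C : ι → Type} [∀ i, CommRing (C i)]
    [∀ i, IsLocalRing (C i)] (φ : ∀ i, A →+* C i) (hφ : ∀ i, IsLocalHom (φ i))
    (hfin : ∀ i, (φ i).Finite) (hinj : ∀ a, (∀ i, φ i a = 0) → a = 0) {ru : Gal →* M2 A}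
    (hc : IsCont ru) (hf : ∀ i, (toRep (mapM (φ i) ru) (hc.map (φ i) (hφ i))).IsFlatAt p) :
    (toRep ru hc).IsFlatAt p := by
  classical
  have := Fintype.ofFinite ι
  suffices H : ∀ (s : Finset ι), s.Nonempty → ∀ (B : Type) [CommRing B] [IsLocalRing B]
      (π : A →+* B) (hπ : IsLocalHom π), Function.Surjective π →
      RingHom.ker π = s.inf (fun i => RingHom.ker (φ i)) →
      (toRep (mapM π ru) (hc.map π hπ)).IsFlatAt p by
    refine isFlatAt_toRep_congr ?_ _ hc (H Finset.univ Finset.univ_nonempty A (RingHom.id A)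
      ⟨fun _ h => h⟩ Function.surjective_id ?_)
    · ext σ i j; rfl
    · refine (RingHom.injective_iff_ker_eq_bot _).1 Function.injective_id |>.trans (eq_bot_iff.2 fun a ha => ?_).symm
      exact hinj a fun i => (Finset.inf_le (f := fun i => RingHom.ker (φ i)) (Finset.mem_univ i)) ha
  -- the map induced on a quotient
  have hlift : ∀ (B : Type) [CommRing B] [IsLocalRing B] (π : A →+* B) (hπ : IsLocalHom π),
      Function.Surjective π → ∀ i, RingHom.ker π ≤ RingHom.ker (φ i) →
      ∃ (ψ : B →+* C i) (hψ : IsLocalHom ψ), ψ.comp π = φ i ∧ ψ.Finite ∧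
        (toRep (mapM ψ (mapM π ru)) ((hc.map π hπ).map ψ hψ)).IsFlatAt p := by
    intro B _ _ π hπ hsurj i hle
    set ψ := RingHom.liftOfSurjective π hsurj ⟨φ i, hle⟩ with hψ
    have hcomp : ψ.comp π = φ i := RingHom.ext fun a => RingHom.liftOfRightInverse_comp_apply π _ (Function.rightInverse_surjInv hsurj) _ a
    have hψl : IsLocalHom ψ := ⟨fun b hb => by
      obtain ⟨a, rfl⟩ := hsurj b
      rw [show ψ (π a) = φ i a from RingHom.congr_fun hcomp a] at hb
      exact ((hφ i).map_nonunit a hb).map π⟩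
    refine ⟨ψ, hψl, hcomp, RingHom.Finite.of_comp_finite (f := π) (hcomp.symm ▸ hfin i), ?_⟩
    exact isFlatAt_toRep_congr (by rw [mapM_mapM, hcomp]) (hc.map (φ i) (hφ i)) _ (hf i)
  intro s hs
  induction hs using Finset.Nonempty.cons_induction with
  | singleton a =>
    intro B _ _ π hπ hsurj hker
    have : IsNoetherianRing B := isNoetherianRing_of_surjective A B π hsurj
    rw [Finset.inf_singleton] at hker
    obtain ⟨ψ, hψ, hcomp, hψf, hψflat⟩ := hlift B π hπ hsurj a hker.le
    refine Lift.isFlatAt_toRep_of_joint ψ ψ hψ hψ (fun b hb _ => ?_) hψf hψf _ hψflat hψflat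
    obtain ⟨x, rfl⟩ := hsurj b
    rw [← RingHom.comp_apply, hcomp] at hb
    exact (hker.ge (RingHom.mem_ker.2 hb) : x ∈ RingHom.ker π)
  | cons a t hat ht IH =>
    intro B _ _ π hπ hsurj hker
    have : IsNoetherianRing B := isNoetherianRing_of_surjective A B π hsurj
    rw [Finset.inf_cons] at hker
    obtain ⟨ψ, hψ, hcomp, hψf, hψflat⟩ := hlift B π hπ hsurj a (hker.le.trans inf_le_left)
    set I := t.inf (fun i => RingHom.ker (φ i)) with hI
    have : Nontrivial (A ⧸ I) := by
      obtain ⟨i, hi⟩ := ht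
      refine Ideal.Quotient.nontrivial_iff.2 fun h => ?_
      have h1 := (Finset.inf_le (f := fun i => RingHom.ker (φ i)) hi) (h.ge (Submodule.mem_top (x := (1 : A))))
      rw [RingHom.mem_ker, map_one] at h1
      exact one_ne_zero h1
    have : IsLocalRing (A ⧸ I) := IsLocalRing.of_surjective' _ Ideal.Quotient.mk_surjective
    have hmk : IsLocalHom (Ideal.Quotient.mk I) := IsLocalHom.of_surjective _ Ideal.Quotient.mk_surjective
    have hle : RingHom.ker π ≤ RingHom.ker (Ideal.Quotient.mk I) := by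
      rw [Ideal.mk_ker]; exact hker.le.trans inf_le_right
    set χ := RingHom.liftOfSurjective π hsurj ⟨Ideal.Quotient.mk I, hle⟩ with hχ
    have hχc : χ.comp π = Ideal.Quotient.mk I := RingHom.ext fun a =>
      RingHom.liftOfRightInverse_comp_apply π _ (Function.rightInverse_surjInv hsurj)
        (⟨Ideal.Quotient.mk I, hle⟩ : {g : A →+* A ⧸ I // RingHom.ker π ≤ RingHom.ker g}) a
    have hχs : Function.Surjective χ := fun y => by
      obtain ⟨x, rfl⟩ := Ideal.Quotient.mk_surjective y
      exact ⟨π x, RingHom.congr_fun hχc x⟩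
    have hχl : IsLocalHom χ := IsLocalHom.of_surjective χ hχs
    refine Lift.isFlatAt_toRep_of_joint ψ χ hψ hχl (fun b hb hb' => ?_) hψf
      (RingHom.Finite.of_surjective χ hχs) _ hψflat
      (isFlatAt_toRep_congr (by rw [mapM_mapM, hχc]) _ _ (IH _ (Ideal.Quotient.mk I) hmk
        Ideal.Quotient.mk_surjective Ideal.mk_ker))
    obtain ⟨x, rfl⟩ := hsurj b
    rw [← RingHom.comp_apply, hcomp] at hb
    rw [← RingHom.comp_apply, hχc, Ideal.Quotient.eq_zero_iff_mem] at hb'
    exact (hker.ge ⟨RingHom.mem_ker.2 hb, hb'⟩ : x ∈ RingHom.ker π)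

end Fermat.Agent.Two.Congr
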