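import Fermat.Agent.Two.Congr.Trace
import Fermat.Agent.RT.Lift.Levels.Joint

/-!
# The joint ring of finitely many lifts and signs

Lifts over finitely many coefficient algebras with one reduction give a lift over the subalgebra
of the product generated by the traces and the signs, conjugate in each factor to the given one.
-/

set_option autoImplicit false
set_option linter.style.haveILetI false
set_option synthInstance.maxHeartbeats 400000

noncomputable section

namespace Fermat.Agent.Two.Congr

open IsLocalRing Fermat.Agent.Deform Fermat.Agent.RT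

/-- Conjugation commutes with a change of coefficients. -/
theorem mapM_conjM {A B : Type} [CommRing A] [CommRing B] (f : A →+* B) (Q : (M2 A)ˣ)
    (r : Gal →* M2 A) :
    mapM f (conjM Q r) = conjM (Units.map f.mapMatrix.toMonoidHom Q) (mapM f r) := by
  refine MonoidHom.ext fun σ => ?_
  show f.mapMatrix (conjM Q r σ) = _
  rw [conjM_apply, conjM_apply, map_mul, map_mul]
  rfl

variable {O : Type} [CommRing O] [IsDomain O] [IsDiscreteValuationRing O]
  [IsAdicComplete (maximalIdeal O) O] {ι : Type} [Finite ι] [Nonempty ι] (C : ι → Type)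
  [∀ i, CommRing (C i)] [∀ i, IsLocalRing (C i)] [∀ i, Algebra O (C i)]
  [∀ i, Module.Finite O (C i)] [∀ i, IsLocalHom (algebraMap O (C i))]

variable (O) in
/-- The tuples with one reduction, taken from `O`. -/
def fibPi : Subalgebra O (∀ i, C i) where
  carrier := {x | ∃ t : O, ∀ i, x i - algebraMap O (C i) t ∈ maximalIdeal (C i)}
  one_mem' := ⟨1, fun i => by simp⟩
  zero_mem' := ⟨0, fun i => by simp⟩
  algebraMap_mem' o := ⟨o, fun i => by simp⟩
  mul_mem' := by
    rintro x y ⟨s, hs⟩ ⟨t, ht⟩
    refine ⟨s * t, fun i => ?_⟩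
    have e : (x * y) i - algebraMap O (C i) (s * t) =
        (x i - algebraMap O (C i) s) * y i + algebraMap O (C i) s * (y i - algebraMap O (C i) t) := by
      rw [map_mul, Pi.mul_apply]; ring
    rw [e]
    exact add_mem (Ideal.mul_mem_right _ _ (hs i)) (Ideal.mul_mem_left _ _ (ht i))
  add_mem' := by
    rintro x y ⟨s, hs⟩ ⟨t, ht⟩
    refine ⟨s + t, fun i => ?_⟩
    rw [map_add, Pi.add_apply, add_sub_add_comm]
    exact add_mem (hs i) (ht i)

variable {C}

omit [Finite ι] [IsAdicComplete (maximalIdeal O) O] [∀ i, Module.Finite O (C i)] in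
theorem isUnit_fibPi_iff (x : fibPi O C) {t : O}
    (ht : ∀ i, (x : ∀ i, C i) i - algebraMap O (C i) t ∈ maximalIdeal (C i)) :
    IsUnit x ↔ IsUnit t := by
  refine ⟨fun h => ?_, fun h => ?_⟩
  · obtain ⟨i⟩ := ‹Nonempty ι›
    by_contra hu
    refine (IsLocalRing.mem_maximalIdeal _).1 ?_ (h.map ((Pi.evalAlgHom O C i).comp (fibPi O C).val))
    have := add_mem (ht i) (map_nonunit (algebraMap O (C i)) t hu)
    rwa [sub_add_cancel] at this
  · have hi : ∀ i, ∃ y, (x : ∀ i, C i) i * y = 1 := fun i => isUnit_iff_exists_inv.1 (by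
      by_contra hu
      have := sub_mem (show (x : ∀ i, C i) i ∈ maximalIdeal (C i) from hu) (ht i)
      rw [sub_sub_cancel] at this
      exact this (h.map (algebraMap O (C i))))
    choose y hy using hi
    obtain ⟨s, hs⟩ := isUnit_iff_exists_inv.1 h
    refine isUnit_iff_exists_inv.2 ⟨⟨y, s, fun i => ?_⟩, Subtype.ext (funext hy)⟩
    have e : y i - algebraMap O (C i) s =
        -(y i * algebraMap O (C i) s * ((x : ∀ i, C i) i - algebraMap O (C i) t)) := by
      have := congrArg (algebraMap O (C i)) hs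
      rw [map_mul, map_one] at this
      linear_combination (algebraMap O (C i) s) * hy i - y i * this
    rw [e]
    exact neg_mem (Ideal.mul_mem_left _ _ (ht i))

instance isLocalRing_fibPi : IsLocalRing (fibPi O C) :=
  haveI : Nontrivial (fibPi O C) := ⟨⟨0, 1, fun h => by
    obtain ⟨i⟩ := ‹Nonempty ι›
    exact zero_ne_one (α := C i) (congrArg (fun x : fibPi O C => (x : ∀ i, C i) i) h)⟩⟩
  IsLocalRing.of_nonunits_add fun x y hx hy => by
    obtain ⟨s, hs⟩ := x.2
    obtain ⟨t, ht⟩ := y.2
    rw [mem_nonunits_iff, isUnit_fibPi_iff x hs] at hx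
    rw [mem_nonunits_iff, isUnit_fibPi_iff y ht] at hy
    rw [mem_nonunits_iff, isUnit_fibPi_iff (x + y) (t := s + t) fun i => by
      rw [map_add, Subalgebra.coe_add, Pi.add_apply, add_sub_add_comm]
      exact add_mem (hs i) (ht i)]
    exact IsLocalRing.nonunits_add hx hy

theorem isResAlg_fibPi : IsResAlg O (fibPi O C) := by
  refine ⟨⟨fun o ho => (isUnit_fibPi_iff (algebraMap O (fibPi O C) o) (t := o) fun i => by simp).1 ho⟩,
    fun z => ?_⟩
  obtain ⟨x, rfl⟩ := residue_surjective z
  obtain ⟨t, ht⟩ := x.2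
  refine ⟨t, ?_⟩
  show residue _ (algebraMap O (fibPi O C) t) = residue _ x
  rw [eq_comm, ← sub_eq_zero, ← map_sub, residue_eq_zero_iff, IsLocalRing.mem_maximalIdeal,
    mem_nonunits_iff, isUnit_fibPi_iff (x - algebraMap O (fibPi O C) t) (t := (0 : O)) fun i => by
      simpa using ht i]
  exact not_isUnit_zero

theorem augment_fibPi (x : fibPi O C) {t : O}
    (ht : ∀ i, (x : ∀ i, C i) i - algebraMap O (C i) t ∈ maximalIdeal (C i)) :
    augment (isResAlg_fibPi (O := O) (C := C)) x = residue O t := by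
  have h0 := (augment_eq_zero_iff isResAlg_fibPi (x - algebraMap O (fibPi O C) t)).2 (by
    rw [IsLocalRing.mem_maximalIdeal, mem_nonunits_iff,
      isUnit_fibPi_iff (x - algebraMap O (fibPi O C) t) (t := (0 : O)) fun i => by simpa using ht i]
    exact not_isUnit_zero)
  rw [map_sub, AlgHom.commutes, sub_eq_zero] at h0
  exact h0

/-- A lift over the algebra of the traces and signs of finitely many lifts. -/
structure JointRing (W : Rigid O) (r : ∀ i, Gal →* M2 (C i)) (z : ∀ i, ℕ → C i) (V : Finset ℕ) :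
    Type 1 where
  J : Type
  [commRing : CommRing J]
  [localRing : IsLocalRing J]
  [algebra : Algebra O J]
  [finite : Module.Finite O J]
  [noetherian : IsNoetherianRing J]
  [complete : IsAdicComplete (maximalIdeal J) J]
  isResAlg : IsResAlg O J
  ru : Gal →* M2 J
  cont : IsCont ru
  lifts : Lifts W isResAlg ru
  sgn : ℕ → J
  pr : ∀ i, J →ₐ[O] C i
  sgn_apply : ∀ v ∈ V, ∀ i, pr i (sgn v) = z i v
  isLocalHom : ∀ i, IsLocalHom (pr i : J →+* C i)
  ext : ∀ x : J, (∀ i, pr i x = 0) → x = 0
  conj : ∀ i, ∃ Q : (M2 (C i))ˣ, mapM (pr i : J →+* C i) ru = conjM Q (r i)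
  gen : Algebra.adjoin O (Set.range (fun σ => (ru σ).trace) ∪ sgn '' (V : Set ℕ)) = ⊤

attribute [instance] JointRing.commRing JointRing.localRing JointRing.algebra JointRing.finite
  JointRing.noetherian JointRing.complete

variable {W : Rigid O} {r : ∀ i, Gal →* M2 (C i)} {z : ∀ i, ℕ → C i} {V : Finset ℕ}

/-- **The joint ring exists.** -/
theorem nonempty_jointRing (hc : ∀ i, IsCont (r i)) (t : Gal → M2 O)
    (hW : ∀ σ a b, W.rb σ a b = residue O (t σ a b)) (hne : ∃ σ, W.rb σ 0 1 ≠ 0)
    (hres : ∀ i σ a b, r i σ a b - algebraMap O (C i) (t σ a b) ∈ maximalIdeal (C i))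
    (hdet : ∀ σ, ∃ c : O, ∀ i, (r i σ).det = algebraMap O (C i) c)
    (hz : ∀ i, ∀ v ∈ V, z i v - 1 ∈ maximalIdeal (C i)) :
    Nonempty (JointRing W r z V) := by
  classical
  have := Fintype.ofFinite ι
  have : IsNoetherian O (∀ i, C i) := isNoetherian_of_isNoetherianRing_of_finite O _
  have hFfin : Module.Finite O (fibPi O C) := Assembly.finite_subalgebra (fibPi O C)
  have hF := isResAlg_fibPi (O := O) (C := C)
  have hFloc := hF.isLocalHom
  have hFc : IsAdicComplete (maximalIdeal (fibPi O C)) (fibPi O C) :=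
    isAdicComplete_of_module_finite (𝒪 := O)
  -- the pairing
  let r₀ : Gal →* M2 (fibPi O C) :=
    { toFun := fun σ => Matrix.of fun a b => ⟨fun i => r i σ a b, t σ a b, fun i => hres i σ a b⟩
      map_one' := Matrix.ext fun a b => Subtype.ext <| funext fun i => by
        show r i 1 a b = _
        rw [map_one, Matrix.one_apply, Matrix.one_apply]
        split_ifs <;> rfl
      map_mul' := fun σ τ => Matrix.ext fun a b => Subtype.ext <| funext fun i => by
        show r i (σ * τ) a b = _
        rw [map_mul, Matrix.mul_apply, Matrix.mul_apply]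
        simp }
  have hl₀ : Lifts W hF r₀ := fun σ a b => by
    rw [augment_fibPi _ (fun i => hres i σ a b), hW]
  have hc₀ : IsCont r₀ := by
    refine Lift.isCont_subalgebra (fibPi O C) hFloc fun n => ?_
    choose j hj using fun i => Assembly.exists_pow_le_map (O := O) (A := C i)
    choose L hL hL' using fun i => hc i (j i * n)
    refine ⟨⨆ i, L i, IntermediateField.finiteDimensional_iSup_of_finite, fun σ hσ a b => ?_⟩
    have h1 : (((1 : M2 (fibPi O C)) a b : fibPi O C) : ∀ i, C i) = fun i => (1 : M2 (C i)) a b := by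
      simp only [Matrix.one_apply]
      split_ifs <;> rfl
    set x : ∀ i, C i := fun i => r i σ a b - (1 : M2 (C i)) a b
    have hx : ((r₀ σ a b - (1 : M2 (fibPi O C)) a b : fibPi O C) : ∀ i, C i) = x := by
      rw [AddSubgroupClass.coe_sub, h1]; rfl
    rw [hx, ← Finset.univ_sum_single x]
    refine sum_mem fun i _ => ?_
    have e : x i ∈ maximalIdeal (C i) ^ (j i * n) :=
      hL' i σ (fun y hy => hσ y ((le_iSup L i) hy)) a b
    have m : x i ∈ maximalIdeal O ^ n • (⊤ : Submodule O (C i)) := by
      rw [Ideal.smul_top_eq_map, Submodule.restrictScalars_mem, Ideal.map_pow]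
      rw [pow_mul] at e
      exact Ideal.pow_right_mono (hj i) n e
    have := Submodule.mem_map_of_mem (f := LinearMap.single O C i) m
    rw [Submodule.map_smul''] at this
    exact Submodule.smul_mono le_rfl le_top this
  obtain ⟨Q, hlQ, hnQ⟩ := exists_normal hl₀
  set ru := conjM Q r₀ with hru
  have htr : ∀ σ i, (((ru σ).trace : fibPi O C) : ∀ i, C i) i = (r i σ).trace := fun σ i => by
    rw [hru, conjM_apply, Matrix.trace_units_conj', Matrix.trace_fin_two, Matrix.trace_fin_two]
    rfl
  let sg : ℕ → fibPi O C := fun v =>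
    if hv : v ∈ V then ⟨fun i => z i v, 1, fun i => by rw [map_one]; exact hz i v hv⟩ else 1
  set J := Algebra.adjoin O (Set.range (fun σ => (ru σ).trace) ∪ sg '' (V : Set ℕ)) with hJ
  have : IsLocalRing J := Assembly.isLocalRing_subalgebra J
  have hJr := Assembly.isResAlg_subalgebra hF J
  have := Assembly.finite_subalgebra J
  have := Assembly.isAdicComplete_subalgebra J hJr.isLocalHom
  have hdet' : ∀ σ, (ru σ).det ∈ J := fun σ => by
    obtain ⟨c, hc'⟩ := hdet σ
    have e : (ru σ).det = algebraMap O (fibPi O C) c := by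
      rw [hru, conjM_apply, Matrix.det_units_conj']
      refine Subtype.ext (funext fun i => ?_)
      rw [Subalgebra.coe_algebraMap, Pi.algebraMap_apply, ← hc' i, Matrix.det_fin_two,
        Matrix.det_fin_two]
      rfl
    rw [e]
    exact J.algebraMap_mem c
  have hmem := entry_mem hlQ hnQ hne J (fun σ => Algebra.subset_adjoin (Or.inl ⟨σ, rfl⟩)) hdet'
  have hnoeth : IsNoetherianRing J := IsNoetherianRing.of_finite O J
  have hsg : ∀ v ∈ V, sg v ∈ J := fun v hv => Algebra.subset_adjoin (Or.inr ⟨v, hv, rfl⟩)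
  have hlocJ := Assembly.isLocalHom_subalgebra_val J
  refine ⟨⟨J, hJr, corestrict J ru hmem, Assembly.isCont_corestrict hF J (hc₀.conj Q) hmem,
    Assembly.lifts_corestrict J hlQ hmem,
    fun v => if hv : v ∈ V then ⟨sg v, hsg v hv⟩ else 1,
    fun i => ((Pi.evalAlgHom O C i).comp (fibPi O C).val).comp J.val, fun v hv i => ?_, fun i => ?_,
    fun x hx => Subtype.ext (Subtype.ext (funext hx)), fun i => ?_, ?_⟩⟩
  · rw [dif_pos hv]
    show ((sg v : fibPi O C) : ∀ i, C i) i = _
    simp only [sg, dif_pos hv]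
  · refine ⟨fun y hy => (isUnit_map_iff (J.val : J →+* fibPi O C) y).1 ?_⟩
    obtain ⟨t', ht'⟩ := (y : fibPi O C).2
    refine (isUnit_fibPi_iff (y : fibPi O C) ht').2 ?_
    by_contra hu
    have hy' : IsUnit (((y : fibPi O C) : ∀ i, C i) i) := hy
    have := add_mem (ht' i) (map_nonunit (algebraMap O (C i)) t' hu)
    rw [sub_add_cancel] at this
    exact this hy'
  · refine ⟨Units.map (((Pi.evalAlgHom O C i).comp (fibPi O C).val : fibPi O C →ₐ[O] C i) :
      fibPi O C →+* C i).mapMatrix.toMonoidHom Q, ?_⟩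
    have h1 : mapM (((Pi.evalAlgHom O C i).comp (fibPi O C).val : fibPi O C →ₐ[O] C i) : fibPi O C →+* C i)
        r₀ = r i := by
      ext σ a b; rfl
    rw [← h1, ← mapM_conjM, ← hru]
    ext σ a b
    rfl
  · refine Subalgebra.map_injective (f := J.val) Subtype.val_injective ?_
    rw [AlgHom.map_adjoin, Algebra.map_top, Subalgebra.range_val, Set.image_union, ← Set.range_comp,
      ← Set.image_comp]
    conv_rhs => rw [hJ]
    congr 2
    refine Set.image_congr fun v hv => ?_
    simp only [Function.comp_apply, dif_pos (Finset.mem_coe.1 hv)]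
    rfl

end Fermat.Agent.Two.Congr
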