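import Fermat.Agent.Two.Congr.Curve
import Fermat.Agent.Two.Congr.Flat
import Fermat.Agent.Two.Congr.Joint
import Fermat.Agent.Two.Congr.Character

/-!
# The congruence input from its Galois and automorphic halves
-/

set_option autoImplicit false
set_option linter.style.haveILetI false
set_option synthInstance.maxHeartbeats 400000

noncomputable section

namespace Fermat.Agent.Two.Congr

open WeierstrassCurve IsLocalRing Module Fermat.Agent.Deform Fermat.Agent.RT
open Fermat.Agent.EC.Rep (residualRep)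
open Fermat.Agent.Two.Lower (tateMat)

local notation "Q̄" => AlgebraicClosure ℚ

variable [Fact (Nat.Prime 2)]

/-- A ring map from the `2`-adic integers to a field killing two factors through reduction. -/
theorem eq_toZMod {F : Type} [Field F] (f : ℤ_[2] →+* F) (φ : ZMod 2 →+* F) (h2 : (2 : F) = 0)
    (x : ℤ_[2]) : f x = φ (PadicInt.toZMod x) := by
  obtain ⟨s, hs⟩ : (2 : ℤ_[2]) ∣ x - ((PadicInt.toZMod x).val : ℤ_[2]) := by
    have h0 : x - ((PadicInt.toZMod x).val : ℤ_[2]) ∈ maximalIdeal ℤ_[2] := by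
      rw [← PadicInt.ker_toZMod, RingHom.mem_ker, map_sub, map_natCast, ZMod.natCast_zmod_val,
        sub_self]
    rw [PadicInt.maximalIdeal_eq_span_p, Ideal.mem_span_singleton] at h0
    exact_mod_cast h0
  conv_lhs => rw [show x = ((PadicInt.toZMod x).val : ℤ_[2]) + 2 * s by rw [← hs]; ring]
  rw [map_add, map_mul, map_ofNat f, h2, zero_mul, add_zero, map_natCast, ← map_natCast φ,
    ZMod.natCast_zmod_val]

omit [Fact (Nat.Prime 2)] in
theorem finite_residueField_of_surjective {A B : Type} [CommRing A] [IsLocalRing A] [CommRing B]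
    [IsLocalRing B] (hA : Finite (ResidueField A)) (f : A →+* B) (hf : Function.Surjective f) :
    Finite (ResidueField B) := by
  have : IsLocalHom f := IsLocalHom.of_surjective f hf
  refine Finite.of_surjective (ResidueField.map f) fun y => ?_
  obtain ⟨b, rfl⟩ := residue_surjective y
  obtain ⟨a, rfl⟩ := hf b
  exact ⟨residue A a, ResidueField.map_residue f a⟩

omit [Fact (Nat.Prime 2)] in
theorem auxPrime_mono {W : WeierstrassCurve ℤ} {hΔ : W.Δ ≠ 0} {v n N : ℕ} (h : AuxPrime W hΔ v N)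
    (hn : n ≤ N) : AuxPrime W hΔ v n := by
  refine ⟨h.prime, h.ne_two, h.good, ?_⟩
  obtain ⟨A, hA, σ, hσ, hsq, hne⟩ := h.unipotent
  refine ⟨A, hA, σ, hσ, fun x => ?_, hne⟩
  exact Submodule.smul_mono_left (Ideal.span_singleton_le_span_singleton.2 (pow_dvd_pow _ hn))
    (hsq x)

omit [Fact (Nat.Prime 2)] in
/-- A sign is congruent to one over a ring of residue characteristic two. -/
theorem sub_one_mem_of_sq {O : Type} [CommRing O] [IsLocalRing O] (h2 : (2 : O) ∈ maximalIdeal O)
    {z : O} (hz : z ^ 2 = 1) : z - 1 ∈ maximalIdeal O := by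
  refine (maximalIdeal.isMaximal O).isPrime.mem_of_pow_mem 2 ?_
  rw [show (z - 1) ^ 2 = 2 * (1 - z) by linear_combination hz]
  exact Ideal.mul_mem_right _ _ h2

/-- The coefficient rings: the point of the curve and the common ring of the forms. -/
def Coef (ι : Type) (R O : Type) : Option ι → Type
  | none => R
  | some _ => O

section Coef

variable {ι R O : Type} [CommRing R] [CommRing O]

instance instCommRingCoef : ∀ o, CommRing (Coef ι R O o)
  | none => inferInstanceAs (CommRing R)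
  | some _ => inferInstanceAs (CommRing O)

instance instIsLocalRingCoef [IsLocalRing R] [IsLocalRing O] :
    ∀ o, IsLocalRing (Coef ι R O o)
  | none => inferInstanceAs (IsLocalRing R)
  | some _ => inferInstanceAs (IsLocalRing O)

variable [Algebra ℤ_[2] R] [Algebra ℤ_[2] O]

instance instAlgebraCoef : ∀ o, Algebra ℤ_[2] (Coef ι R O o)
  | none => inferInstanceAs (Algebra ℤ_[2] R)
  | some _ => inferInstanceAs (Algebra ℤ_[2] O)

instance instFiniteCoef [Module.Finite ℤ_[2] R] [Module.Finite ℤ_[2] O] :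
    ∀ o, Module.Finite ℤ_[2] (Coef ι R O o)
  | none => inferInstanceAs (Module.Finite ℤ_[2] R)
  | some _ => inferInstanceAs (Module.Finite ℤ_[2] O)

instance instIsLocalHomCoef [IsLocalHom (algebraMap ℤ_[2] R)] [IsLocalHom (algebraMap ℤ_[2] O)] :
    ∀ o, IsLocalHom (algebraMap ℤ_[2] (Coef ι R O o))
  | none => ‹IsLocalHom (algebraMap ℤ_[2] R)›
  | some _ => ‹IsLocalHom (algebraMap ℤ_[2] O)›

end Coef

section Bound

variable {W : WeierstrassCurve ℤ} {V : Finset ℕ} {N : ℕ} {O ι : Type} [CommRing O] [IsDomain O]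
  [IsLocalRing O] [CharZero O] [Algebra ℤ_[2] O] [Module.Finite ℤ_[2] O] [Finite ι]

set_option maxHeartbeats 2000000 in
/-- **The point of the curve is congruent to one of the forms.** -/
theorem exists_congr_form (hW : TwoCurve W) {c m n : ℕ} (hc : 0 < c)
    (hbound : ModTwoBound W hW.Δ_ne_zero V c) (hι : c ≤ Nat.card ι) (hN0 : N ≠ 0)
    (hN : c * c * m ≤ N) (hm : n * c < m) (hV : ∀ v ∈ V, AuxPrime W hW.Δ_ne_zero v N)
    (ρ : ι → (Gal →* M2 O)) (hρ : ∀ i, IsCont (ρ i)) (z : ι → ℕ → O)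
    (hlift : ∀ i, IsLift W hW.Δ_ne_zero V (ρ i) (hρ i) (z i))
    (hdist : ∀ i i', (∀ σ, (ρ i σ).trace = (ρ i' σ).trace) → i = i')
    (A : ValuationSubring ℂ) (j : O →+* ℂ) (hj : Function.Injective j) (hjA : ∀ x, j x ∈ A) :
    ∃ i, ∀ (ℓ : ℕ), ℓ.Prime → W.IsGoodPrimeFor ℓ → ℓ ≠ 2 →
      ∀ P : ValuationSubring Q̄, P.LiesOverPrime ℓ → ∀ φ : Gal, P.IsFrobeniusAt φ ℓ →
        ∃ e ∈ A, j (ρ i φ).trace - (W.apOfModel ℓ : ℂ) = (2 : ℂ) ^ n * e := by
  classical
  have : Fintype ι := Fintype.ofFinite ι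
  have hΔ := hW.Δ_ne_zero
  set T : Gal →* M2 ℤ_[2] := tateMat (p := 2) hΔ with hT
  obtain ⟨Wr, hWr, hne⟩ := exists_rigid_tateMat hW
  have h2Z : (2 : ℤ_[2]) ∈ maximalIdeal ℤ_[2] := by
    rw [PadicInt.maximalIdeal_eq_span_p, Nat.cast_ofNat]; exact Ideal.mem_span_singleton_self _
  -- the quotient for the curve
  set R := ℤ_[2] ⧸ Ideal.span {(2 : ℤ_[2]) ^ N} with hR
  have : Nontrivial R := Ideal.Quotient.nontrivial_iff.2 fun h => by
    have h1 := (Ideal.span_singleton_eq_top.1 h)
    exact h2Z ((isUnit_pow_iff hN0).1 h1)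
  have : IsLocalRing R := IsLocalRing.of_surjective' _ Ideal.Quotient.mk_surjective
  set mk : ℤ_[2] →+* R := Ideal.Quotient.mk _ with hmk
  have hmkl : IsLocalHom mk := IsLocalHom.of_surjective _ Ideal.Quotient.mk_surjective
  have : IsLocalHom (algebraMap ℤ_[2] R) := hmkl
  -- the ring of the forms
  have : IsLocalHom (algebraMap ℤ_[2] O) := RingHom.IsIntegral.isLocalHom
    (algebraMap_isIntegral_iff.mpr inferInstance) (injective_algebraMap_of_charZero O)
  have h2O : (2 : O) ∈ maximalIdeal O := by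
    rw [← map_ofNat (algebraMap ℤ_[2] O) 2]; exact map_nonunit _ _ h2Z
  have : IsAdicComplete (maximalIdeal O) O := isAdicComplete_of_module_finite (𝒪 := ℤ_[2])
  choose φ₀ b₀ hb₀ using fun i => (hlift i).residual
  choose Q hQ using fun i => exists_conj_congr_tateMat hΔ h2O (φ₀ i) (b₀ i) (hb₀ i)
  let C := Coef ι R O
  let r : ∀ o, Gal →* M2 (C o)
    | none => mapM mk T
    | some i => conjM (Q i) (ρ i)
  let zz : ∀ o, ℕ → C o
    | none => fun _ => (1 : R)
    | some i => z i
  have hrc : ∀ o, IsCont (r o)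
    | none => (isCont_tateMat hΔ).map mk hmkl
    | some i => (hρ i).conj (Q i)
  have hres : ∀ o σ a b, r o σ a b - algebraMap ℤ_[2] (C o) (T σ a b) ∈ maximalIdeal (C o)
    | none => fun σ a b => by
      show mk (T σ a b) - mk (T σ a b) ∈ maximalIdeal R
      rw [sub_self]; exact zero_mem _
    | some i => hQ i
  -- the determinant
  have hp : ((2 : ℕ) : ℤ_[2]) ∈ maximalIdeal ℤ_[2] := by rwa [Nat.cast_ofNat]
  choose c₀ hc₀ using Assembly.exists_padicInt_cyclotomic 2
  have huniq : ∀ σ (u : ℤ_[2]), (∀ (k a : ℕ), (∀ μ : Q̄, μ ^ 2 ^ k = 1 → σ μ = μ ^ a) →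
      u - (a : ℤ_[2]) ∈ Ideal.span {((2 : ℕ) : ℤ_[2]) ^ k}) → u = c₀ σ := fun σ u hu =>
    Assembly.eq_of_forall_sub_mem hp fun k => by
      haveI : NeZero (2 ^ k) := ⟨pow_ne_zero k two_ne_zero⟩
      obtain ⟨a, ha⟩ := CFT.Tangent.exists_pow_eq_on_roots (2 ^ k) σ
      have := sub_mem (hu k a ha) (hc₀ σ k a ha)
      rwa [sub_sub_sub_cancel_right] at this
  have hdetT : ∀ σ, (T σ).det = c₀ σ := fun σ => by
    obtain ⟨u, hu, hu'⟩ :=
      Assembly.exists_det_algebraMap hp (detIsCyclotomic_tateMat hΔ) σ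
    rw [← huniq σ u hu']
    exact ((LinearMap.det_toLin' (T σ)).symm.trans hu)
  have hdetρ : ∀ i σ, (ρ i σ).det = algebraMap ℤ_[2] O (c₀ σ) := fun i σ => by
    obtain ⟨u, hu, hu'⟩ := Assembly.exists_det_algebraMap hp (hlift i).detCyclotomic σ
    rw [← huniq σ u hu']
    exact ((LinearMap.det_toLin' (ρ i σ)).symm.trans hu)
  have hdet : ∀ σ, ∀ o, (r o σ).det = algebraMap ℤ_[2] (C o) (c₀ σ) := fun σ o => match o with
    | none => by
      show (mk.mapMatrix (T σ)).det = mk (c₀ σ)
      rw [← RingHom.map_det, hdetT]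
    | some i => by
      show (conjM (Q i) (ρ i) σ).det = _
      rw [conjM_apply, Matrix.det_units_conj']
      exact hdetρ i σ
  have hz : ∀ o, ∀ v ∈ V, zz o v - 1 ∈ maximalIdeal (C o)
    | none => fun v _ => show (1 : R) - 1 ∈ maximalIdeal R from
        (sub_self (1 : R)).symm ▸ Submodule.zero_mem _
    | some i => fun v hv => sub_one_mem_of_sq h2O ((hlift i).sign_sq v hv)
  obtain ⟨Jl⟩ := nonempty_jointRing (W := Wr) (r := r) (z := zz) (V := V) hrc T hWr hne hres
    (fun σ => ⟨c₀ σ, hdet σ⟩) hz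
  set J := Jl.J
  choose P hP using Jl.conj
  have hmap : ∀ o σ, (Jl.pr o : J →+* C o).mapMatrix (Jl.ru σ) =
      (↑(P o)⁻¹ : M2 (C o)) * r o σ * (P o : M2 (C o)) := fun o σ => DFunLike.congr_fun (hP o) σ
  have hext : ∀ X : M2 J, (∀ o, (Jl.pr o : J →+* C o).mapMatrix X = 0) → X = 0 := fun X hX =>
    Matrix.ext fun a b => Jl.ext _ fun o => congrFun (congrFun (hX o) a) b
  have hsub : ∀ o σ, (Jl.pr o : J →+* C o).mapMatrix (Jl.ru σ - 1) =
      (↑(P o)⁻¹ : M2 (C o)) * (r o σ - 1) * (P o : M2 (C o)) := fun o σ => by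
    rw [map_sub, map_one, hmap, mul_sub, sub_mul, mul_one, Units.inv_mul]
  have htr : ∀ o σ, Jl.pr o (Jl.ru σ).trace = (r o σ).trace := fun o σ => by
    have h1 : ((Jl.pr o : J →+* C o).mapMatrix (Jl.ru σ)).trace = (r o σ).trace := by
      rw [hmap, Matrix.trace_units_conj']
    rw [← h1, Matrix.trace_fin_two, Matrix.trace_fin_two, map_add]
    rfl
  have htrS : ∀ i σ, Jl.pr (some i) (Jl.ru σ).trace = (ρ i σ).trace := fun i σ => by
    rw [htr]
    show (conjM (Q i) (ρ i) σ).trace = _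
    rw [conjM_apply, Matrix.trace_units_conj']
  have hconjsub : ∀ i σ, conjM (Q i) (ρ i) σ - 1 =
      (↑(Q i)⁻¹ : M2 O) * (ρ i σ - 1) * (Q i : M2 O) :=
    fun i σ => by
      rw [conjM_apply, mul_sub, sub_mul, mul_one, Units.inv_mul]
  -- reduction modulo two
  have hJloc : IsLocalHom (algebraMap ℤ_[2] J) := Jl.isResAlg.isLocalHom
  have h2J : ((2 : ℕ) : J) ∈ maximalIdeal J := by
    rw [← map_natCast (algebraMap ℤ_[2] J)]; exact map_nonunit _ _ hp
  set I : Ideal J := Ideal.span {((2 : ℕ) : J)} with hI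
  have : Nontrivial (J ⧸ I) := Ideal.Quotient.nontrivial_iff.2 fun h =>
    h2J (Ideal.span_singleton_eq_top.1 h)
  have : IsLocalRing (J ⧸ I) := IsLocalRing.of_surjective' _ Ideal.Quotient.mk_surjective
  set q : J →+* J ⧸ I := Ideal.Quotient.mk I with hq
  have hql : IsLocalHom q := IsLocalHom.of_surjective _ Ideal.Quotient.mk_surjective
  have hfinA : Finite (J ⧸ I) := by
    have h := Lift.finite_quotient_map_pow (A := ℤ_[2]) (R := J)
      (Finite.of_equiv (ZMod 2) PadicInt.residueField.symm.toEquiv) (algebraMap ℤ_[2] J)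
      (RingHom.finite_algebraMap.2 inferInstance) 1
    rwa [pow_one, PadicInt.maximalIdeal_eq_span_p, Ideal.map_span, Set.image_singleton,
      map_natCast] at h
  have : CharP (J ⧸ I) 2 := CharP.quotient J 2 h2J
  let ψ₀ : ℤ_[2] →+* J ⧸ I := q.comp (algebraMap ℤ_[2] J)
  have hψ₀ : IsLocalHom ψ₀ := RingHom.isLocalHom_comp _ _
  let ψ : ResidueField ℤ_[2] →+* ResidueField (J ⧸ I) := ResidueField.map ψ₀
  have hψs : Function.Surjective ψ := fun y => by
    obtain ⟨y, rfl⟩ := residue_surjective y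
    obtain ⟨x, rfl⟩ := Ideal.Quotient.mk_surjective y
    obtain ⟨t, ht⟩ := exists_sub_mem Jl.isResAlg x
    refine ⟨residue _ t, ?_⟩
    show ResidueField.map ψ₀ (residue _ t) = residue _ (q x)
    rw [ResidueField.map_residue, eq_comm, ← sub_eq_zero, ← map_sub, residue_eq_zero_iff]
    show q x - q (algebraMap ℤ_[2] J t) ∈ _
    rw [← map_sub]
    exact map_nonunit q _ ht
  have hcard : Nat.card (ResidueField (J ⧸ I)) = 2 := by
    rw [← Nat.card_congr (Equiv.ofBijective ψ ⟨ψ.injective, hψs⟩),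
      Nat.card_congr (PadicInt.residueField (p := 2)).toEquiv, Nat.card_zmod]
  set ρA : Gal →* M2 (J ⧸ I) := mapM q Jl.ru with hρA
  have hρAc : IsCont ρA := Jl.cont.map q hql
  set zA : ℕ → J ⧸ I := fun v => q (Jl.sgn v) with hzA
  have hLift : IsLift W hΔ V ρA hρAc zA := by
    refine ⟨?_, ?_, fun ℓ hℓ hℓ2 hgood hℓV B hB σ hσ => ?_, fun ℓ hℓ hbad B hB σ hσ => ?_, ?_,
      fun v hv => ?_, fun v hv B hB φ hφ => ?_⟩
    · obtain ⟨bb, hbb⟩ := Lift.exists_basis_residual_tateRep (p := 2) (W := W) hΔ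
      let φA : ZMod 2 →+* ResidueField (J ⧸ I) :=
        ψ.comp (PadicInt.residueField (p := 2)).symm.toRingHom
      refine ⟨φA, bb, fun σ a b => ?_⟩
      have h2k : (2 : ResidueField (J ⧸ I)) = 0 := by
        rw [← map_ofNat φA 2, show (2 : ZMod 2) = 0 from rfl, map_zero]
      have h1 : Jl.ru σ a b - algebraMap ℤ_[2] J (T σ a b) ∈ maximalIdeal J :=
        (augment_eq_zero_iff Jl.isResAlg _).1 (by
          rw [map_sub, AlgHom.commutes, Jl.lifts σ a b, hWr]; exact sub_self _)
      have h3 := (residue_eq_zero_iff _).2 (map_nonunit q _ h1)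
      rw [map_sub, map_sub, sub_eq_zero] at h3
      show residue _ (q (Jl.ru σ a b)) = _
      rw [h3, hbb]
      exact eq_toZMod ((residue _).comp ψ₀) φA h2k (T σ a b)
    · refine ⟨?_, fun k σ a ha => ?_⟩
      · rw [← map_natCast q]; exact map_nonunit q _ h2J
      have e : (Jl.ru σ).det = algebraMap ℤ_[2] J (c₀ σ) := by
        refine sub_eq_zero.1 (Jl.ext _ fun o => ?_)
        rw [map_sub, AlgHom.commutes, sub_eq_zero, ← hdet σ o,
          show Jl.pr o (Jl.ru σ).det = ((Jl.pr o : J →+* C o).mapMatrix (Jl.ru σ)).det from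
            RingHom.map_det (Jl.pr o : J →+* C o) _, hmap, Matrix.det_units_conj']
      have e1 : LinearMap.det ((toRep ρA hρAc).ρ σ) = q (algebraMap ℤ_[2] J (c₀ σ)) := by
        rw [← e]
        exact (LinearMap.det_toLin' (ρA σ)).trans (RingHom.map_det q _).symm
      rw [e1]
      obtain ⟨d, hd⟩ := Ideal.mem_span_singleton'.mp (hc₀ σ k a ha)
      refine Ideal.mem_span_singleton'.mpr ⟨q (algebraMap ℤ_[2] J d), ?_⟩
      have := congrArg (q.comp (algebraMap ℤ_[2] J)) hd
      rw [map_mul, map_sub, map_pow, map_natCast, map_natCast] at this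
      rw [Nat.cast_pow]
      exact this
    · have h0 : Jl.ru σ - 1 = 0 := hext _ fun o => by
        have key : r o σ = 1 := by
          match o with
          | none =>
            show mk.mapMatrix (T σ) = (1 : M2 R)
            rw [hT, tateMat_inertia_good hΔ hℓ hgood hℓ2 hB hσ, map_one]
          | some i =>
            show conjM (Q i) (ρ i) σ = (1 : M2 O)
            rw [conjM_apply, (hlift i).unramified ℓ hℓ hℓ2 hgood hℓV B hB σ hσ, mul_one,
              Units.inv_mul]
        rw [hsub, key, sub_self, mul_zero, zero_mul]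
      show q.mapMatrix (Jl.ru σ) = 1
      rw [sub_eq_zero.1 h0, map_one]
    · have h0 : (Jl.ru σ - 1) * (Jl.ru σ - 1) = 0 := hext _ fun o => by
        have key : (r o σ - 1) * (r o σ - 1) = 0 := by
          match o with
          | none =>
            show (mk.mapMatrix (T σ) - 1) * (mk.mapMatrix (T σ) - 1) = (0 : M2 R)
            rw [← map_one mk.mapMatrix, ← map_sub, ← map_mul, hT,
              tateMat_inertia_bad hW hℓ hbad hB hσ, map_zero]
          | some i =>
            show (conjM (Q i) (ρ i) σ - 1) * (conjM (Q i) (ρ i) σ - 1) = (0 : M2 O)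
            rw [hconjsub]
            calc (↑(Q i)⁻¹ : M2 O) * (ρ i σ - 1) * (Q i : M2 O) *
                  ((↑(Q i)⁻¹ : M2 O) * (ρ i σ - 1) * (Q i : M2 O))
                = (↑(Q i)⁻¹ : M2 O) * ((ρ i σ - 1) * (ρ i σ - 1)) * (Q i : M2 O) := by
                  simp only [mul_assoc, Units.mul_inv_cancel_left]
              _ = 0 := by rw [(hlift i).unipotent ℓ hℓ hbad B hB σ hσ, mul_zero, zero_mul]
        rw [map_mul, hsub]
        calc (↑(P o)⁻¹ : M2 (C o)) * (r o σ - 1) * (P o : M2 (C o)) *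
              ((↑(P o)⁻¹ : M2 (C o)) * (r o σ - 1) * (P o : M2 (C o)))
            = (↑(P o)⁻¹ : M2 (C o)) * ((r o σ - 1) * (r o σ - 1)) * (P o : M2 (C o)) := by
              simp only [mul_assoc, Units.mul_inv_cancel_left]
          _ = 0 := by rw [key, mul_zero, zero_mul]
      show (q.mapMatrix (Jl.ru σ) - 1) * (q.mapMatrix (Jl.ru σ) - 1) = 0
      rw [← map_one q.mapMatrix, ← map_sub, ← map_mul, h0, map_zero]
    · -- flatness
      have hflatJ : (toRep Jl.ru Jl.cont).IsFlatAt 2 := by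
        refine isFlatAt_toRep_of_family (C := C) (fun o => (Jl.pr o : J →+* C o))
          Jl.isLocalHom (fun o => ?_) (fun x hx => Jl.ext x hx) Jl.cont fun o => ?_
        · refine RingHom.Finite.of_comp_finite (f := algebraMap ℤ_[2] J) ?_
          rw [AlgHom.comp_algebraMap]
          exact RingHom.finite_algebraMap.2 inferInstance
        refine isFlatAt_toRep_congr (hP o).symm ((hrc o).conj (P o)) _ ?_
        refine Assembly.isFlatAt_of_isEquiv (isEquiv_conj (hrc o) (P o)) ?_
        match o with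
        | none =>
          exact Assembly.isFlatAt_of_isEquiv
            (isEquiv_baseChangeAlong_toRep mk hmkl T (isCont_tateMat hΔ))
            (Lift.isFlatAt_baseChangeAlong mk hmkl (finite_residueField_of_surjective
              (Finite.of_equiv (ZMod 2) PadicInt.residueField.symm.toEquiv) mk
              Ideal.Quotient.mk_surjective) (isFlatAt_tateMat hW))
        | some i => exact Assembly.isFlatAt_of_isEquiv (isEquiv_conj (hρ i) (Q i)) (hlift i).flat
      exact Assembly.isFlatAt_of_isEquiv (isEquiv_baseChangeAlong_toRep q hql Jl.ru Jl.cont)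
        (Lift.isFlatAt_baseChangeAlong q hql (Nat.finite_of_card_ne_zero (by rw [hcard]; decide)) hflatJ)
    · show q (Jl.sgn v) ^ 2 = 1
      have h0 : Jl.sgn v ^ 2 = 1 := sub_eq_zero.1 (Jl.ext _ fun o => by
        rw [map_sub, map_pow, map_one, Jl.sgn_apply v hv o, sub_eq_zero]
        match o with
        | none => exact one_pow 2
        | some i => exact (hlift i).sign_sq v hv)
      rw [← map_pow, h0, map_one]
    · have haux := hV v hv
      have ht : (Jl.ru φ).trace = Jl.sgn v * ((v : J) + 1) := sub_eq_zero.1 (Jl.ext _ fun o => by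
        rw [map_sub, map_mul, map_add, map_natCast, map_one, Jl.sgn_apply v hv o, htr, sub_eq_zero]
        match o with
        | none =>
          show (mk.mapMatrix (T φ)).trace = (1 : R) * ((v : R) + 1)
          rw [one_mul, ← map_natCast mk, ← map_one mk, ← map_add, Matrix.trace_fin_two,
            RingHom.mapMatrix_apply, Matrix.map_apply, Matrix.map_apply, ← map_add,
            ← Matrix.trace_fin_two]
          exact Ideal.Quotient.eq.2 (trace_tateMat_auxPrime hΔ hN0 haux hB hφ)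
        | some i =>
          show (conjM (Q i) (ρ i) φ).trace = _
          rw [conjM_apply, Matrix.trace_units_conj']
          exact ((hlift i).special v hv B hB φ hφ).1)
      refine ⟨?_, fun σ hσ => ?_⟩
      · show (q.mapMatrix (Jl.ru φ)).trace = q (Jl.sgn v) * ((v : J ⧸ I) + 1)
        rw [← map_natCast q, ← map_one q, ← map_add, ← map_mul, ← ht, Matrix.trace_fin_two,
          Matrix.trace_fin_two, map_add]
        rfl
      have hscal : ∀ (o : Option ι) (a : J), (Jl.pr o : J →+* C o).mapMatrix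
          (Jl.ru φ - a • (1 : M2 J)) =
            (↑(P o)⁻¹ : M2 (C o)) * (r o φ - Jl.pr o a • (1 : M2 (C o))) * (P o : M2 (C o)) := fun o a => by
        rw [map_sub, hmap, mul_sub, sub_mul, mul_smul_comm, mul_one, smul_mul_assoc, Units.inv_mul,
          Matrix.smul_one_eq_diagonal, Matrix.smul_one_eq_diagonal]
        congr 1
        rw [RingHom.mapMatrix_apply, Matrix.diagonal_map (map_zero _)]
        rfl
      have h0 : (Jl.ru φ - (Jl.sgn v * (v : J)) • (1 : M2 J)) * (Jl.ru σ - 1) = 0 ∧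
          (Jl.ru σ - 1) * (Jl.ru φ - Jl.sgn v • (1 : M2 J)) = 0 := by
        have key : ∀ o, (r o φ - (zz o v * (v : C o)) • (1 : M2 (C o))) * (r o σ - 1) = 0 ∧
            (r o σ - 1) * (r o φ - zz o v • (1 : M2 (C o))) = 0 := fun o => by
          match o with
          | none =>
            show (mk.mapMatrix (T φ) - ((1 : R) * (v : R)) • (1 : M2 R)) *
                  (mk.mapMatrix (T σ) - 1) = 0 ∧
                (mk.mapMatrix (T σ) - 1) * (mk.mapMatrix (T φ) - (1 : R) • (1 : M2 R)) = 0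
            rw [hT, tateMat_inertia_good hΔ haux.prime haux.good haux.ne_two hB hσ, map_one,
              sub_self, mul_zero, zero_mul]
            exact ⟨rfl, rfl⟩
          | some i =>
            obtain ⟨e₁, e₂⟩ := ((hlift i).special v hv B hB φ hφ).2 σ hσ
            have hs : ∀ a : O, conjM (Q i) (ρ i) φ - a • (1 : M2 O) =
                (↑(Q i)⁻¹ : M2 O) * (ρ i φ - a • (1 : M2 O)) * (Q i : M2 O) := fun a => by
              rw [conjM_apply, mul_sub, sub_mul, mul_smul_comm, mul_one, smul_mul_assoc,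
                Units.inv_mul]
            show (conjM (Q i) (ρ i) φ - (z i v * (v : O)) • (1 : M2 O)) *
                  (conjM (Q i) (ρ i) σ - 1) = 0 ∧
                (conjM (Q i) (ρ i) σ - 1) * (conjM (Q i) (ρ i) φ - z i v • (1 : M2 O)) = 0
            rw [hconjsub, hs, hs]
            constructor
            · calc _ = (↑(Q i)⁻¹ : M2 O) * ((ρ i φ - (z i v * (v : O)) • (1 : M2 O)) *
                    (ρ i σ - 1)) * (Q i : M2 O) := by
                    simp only [mul_assoc, Units.mul_inv_cancel_left]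
                _ = 0 := by rw [e₁, mul_zero, zero_mul]
            · calc _ = (↑(Q i)⁻¹ : M2 O) * ((ρ i σ - 1) * (ρ i φ - z i v • (1 : M2 O))) *
                    (Q i : M2 O) := by simp only [mul_assoc, Units.mul_inv_cancel_left]
                _ = 0 := by rw [e₂, mul_zero, zero_mul]
        constructor
        · refine hext _ fun o => ?_
          rw [map_mul, hscal, hsub, map_mul, map_natCast, Jl.sgn_apply v hv o]
          calc _ = (↑(P o)⁻¹ : M2 (C o)) * ((r o φ - (zz o v * (v : C o)) • (1 : M2 (C o))) *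
                (r o σ - 1)) * (P o : M2 (C o)) := by
                simp only [mul_assoc, Units.mul_inv_cancel_left]
            _ = 0 := by rw [(key o).1, mul_zero, zero_mul]
        · refine hext _ fun o => ?_
          rw [map_mul, hscal, hsub, Jl.sgn_apply v hv o]
          calc _ = (↑(P o)⁻¹ : M2 (C o)) * ((r o σ - 1) * (r o φ - zz o v • (1 : M2 (C o)))) *
                (P o : M2 (C o)) := by simp only [mul_assoc, Units.mul_inv_cancel_left]
            _ = 0 := by rw [(key o).2, mul_zero, zero_mul]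
      have hqs : ∀ a : J, q.mapMatrix (a • (1 : M2 J)) = q a • (1 : M2 (J ⧸ I)) := fun a => by
        rw [Matrix.smul_one_eq_diagonal, Matrix.smul_one_eq_diagonal, RingHom.mapMatrix_apply,
          Matrix.diagonal_map (map_zero _)]
      show (q.mapMatrix (Jl.ru φ) - (q (Jl.sgn v) * (v : J ⧸ I)) • (1 : M2 (J ⧸ I))) *
          (q.mapMatrix (Jl.ru σ) - 1) = 0 ∧ (q.mapMatrix (Jl.ru σ) - 1) *
          (q.mapMatrix (Jl.ru φ) - q (Jl.sgn v) • (1 : M2 (J ⧸ I))) = 0
      rw [← map_natCast q, ← map_mul q, ← hqs, ← hqs, ← map_one q.mapMatrix, ← map_sub, ← map_sub,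
        ← map_sub, ← map_mul, ← map_mul, h0.1, h0.2, map_zero]
      exact ⟨rfl, rfl⟩
  have hgen : Subring.closure (Set.range (fun σ => (ρA σ).trace) ∪ zA '' (V : Set ℕ)) = ⊤ := by
    refine eq_top_iff.2 fun y _ => ?_
    obtain ⟨x, rfl⟩ := Ideal.Quotient.mk_surjective y
    have hx : x ∈ Algebra.adjoin ℤ_[2]
        (Set.range (fun σ => (Jl.ru σ).trace) ∪ Jl.sgn '' (V : Set ℕ)) := Jl.gen ▸ Algebra.mem_top
    rename_i hy
    clear hy
    induction hx using Algebra.adjoin_induction with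
    | mem u hu =>
      refine Subring.subset_closure ?_
      rcases hu with ⟨σ, rfl⟩ | ⟨v, hv, rfl⟩
      · refine Or.inl ⟨σ, ?_⟩
        show (q.mapMatrix (Jl.ru σ)).trace = q (Jl.ru σ).trace
        rw [Matrix.trace_fin_two, Matrix.trace_fin_two, map_add]
        rfl
      · exact Or.inr ⟨v, hv, rfl⟩
    | algebraMap t =>
      obtain ⟨s, hs⟩ : (2 : ℤ_[2]) ∣ t - ((PadicInt.toZMod t).val : ℤ_[2]) := by
        have h0 : t - ((PadicInt.toZMod t).val : ℤ_[2]) ∈ maximalIdeal ℤ_[2] := by
          rw [← PadicInt.ker_toZMod, RingHom.mem_ker, map_sub, map_natCast, ZMod.natCast_zmod_val,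
            sub_self]
        rw [PadicInt.maximalIdeal_eq_span_p, Ideal.mem_span_singleton] at h0
        exact_mod_cast h0
      rw [show t = ((PadicInt.toZMod t).val : ℤ_[2]) + ((2 : ℕ) : ℤ_[2]) * s by
        rw [Nat.cast_ofNat, ← hs]; ring]
      show q _ ∈ _
      rw [map_add, map_mul, map_natCast, map_natCast, map_add, map_mul, map_natCast, map_natCast,
        CharP.cast_eq_zero (J ⧸ I) 2, zero_mul, add_zero]
      exact natCast_mem _ _
    | add u w _ _ hu hw => rw [map_add]; exact add_mem hu hw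
    | mul u w _ _ hu hw => rw [map_mul]; exact mul_mem hu hw
  have hbd : Nat.card (J ⧸ I) ≤ 2 ^ c := hbound (J ⧸ I) hcard ρA hρAc zA hLift hgen
  -- the characters
  let pr' : ι → J →ₐ[ℤ_[2]] O := fun i => Jl.pr (some i)
  have hpr' : Function.Injective pr' := fun i i' h => hdist i i' fun σ => by
    rw [← htrS, ← htrS]; exact AlgHom.congr_fun h _
  have hI2 : Ideal.span {(2 : J)} = I := by rw [hI, Nat.cast_ofNat]
  obtain ⟨i, hi⟩ := exists_congr_character pr' hpr' hc (hI2 ▸ hfinA) (hI2 ▸ hbd) hι hN hm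
    (Jl.pr none) j hj A hjA
  refine ⟨i, fun ℓ hℓ hgood hℓ2 B hB φ hφ => ?_⟩
  obtain ⟨e, he, h⟩ := hi (Jl.ru φ).trace (W.apOfModel ℓ : ℤ_[2]) (by
    refine (htr none φ).trans ?_
    show (mk.mapMatrix (T φ)).trace = mk (W.apOfModel ℓ : ℤ_[2])
    rw [Matrix.trace_fin_two, RingHom.mapMatrix_apply, Matrix.map_apply, Matrix.map_apply,
      ← map_add, ← Matrix.trace_fin_two]
    congr 1
    exact (LinearMap.trace_eq_matrix_trace ℤ_[2] (Lower.tateBas (p := 2) hΔ) _).symm.trans
      (EC.Rep.tateRep_trace_det_frobenius (p := 2) hΔ hℓ hgood hℓ2 hB hφ).1)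
  refine ⟨e, he, ?_⟩
  rw [← h, map_sub, show pr' i (Jl.ru φ).trace = (ρ i φ).trace from htrS i φ, map_intCast,
    map_intCast]

end Bound

omit [Fact (Nat.Prime 2)] in
/-- **The congruence input from the two halves.** -/
theorem congruenceInput_of (hG : GaloisInput) (hM : ModularInput) : CongruenceInput := by
  intro W hW M
  haveI : Fact (Nat.Prime 2) := ⟨Nat.prime_two⟩
  obtain ⟨k, hk⟩ := hG W hW
  set c := classTwo W * 2 ^ k with hcdef
  set n := M + k with hn
  set m := n * c + 1 with hm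
  set N := c * c * m + n + 1 with hN
  obtain ⟨V, hVk, -, hVaux, hbound⟩ := hk N ∅ (by omega)
  obtain ⟨O, _, _, _, _, _, _, ι, _, A, j, hcard, hA2, hj, hjA, f, ρ, hρ, z, hf, hlift, hdist,
    hcoeff⟩ := hM W hW V fun v hv => ⟨auxPrime_mono (hVaux v hv).1 (by omega), (hVaux v hv).2⟩
  have hc : 0 < c := by
    rw [hcdef, classTwo]; positivity
  obtain ⟨i, hi⟩ := exists_congr_form hW hc hbound (hcard.trans' (by rw [hVk])) (by omega : N ≠ 0) (m := m)
    (n := n) (by omega) (by omega) (fun v hv => (hVaux v hv).1) ρ hρ z hlift hdist A j hj hjA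
  refine ⟨n, V, by omega, fun v hv => auxPrime_mono (hVaux v hv).1 (by omega), f i, hf i, A, hA2,
    fun ℓ hℓ hgood hℓ2 hℓN => ?_⟩
  have hℓV : ℓ ∉ V := fun h => hℓN ((Finset.dvd_prod_of_mem _ h).mul_left _)
  obtain ⟨B, hB⟩ := Arith.exists_liesOverPrime hℓ
  obtain ⟨φ, hφ⟩ := Arith.exists_isFrobeniusAt hB hℓ
  obtain ⟨e, he, h⟩ := hi ℓ hℓ hgood hℓ2 B hB φ hφ
  exact ⟨e, he, by rw [← hcoeff i ℓ hℓ hgood hℓ2 hℓV B hB φ hφ]; exact h⟩

end Fermat.Agent.Two.Congr
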