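import Fermat.Agent.Two.Interface
import Fermat.Agent.Two.Lower.Span
import Fermat.Agent.RT.Lift.Levels.CurvePoint

/-!
# The curve modulo a power of two as a lift with trivial signs
-/

set_option autoImplicit false
set_option linter.style.haveILetI false
set_option synthInstance.maxHeartbeats 400000

noncomputable section

namespace Fermat.Agent.Two.Congr

open WeierstrassCurve IsLocalRing Module Fermat.Agent.Deform
open Fermat.Agent.EC.Rep (residualRep tateRep)
open Fermat.Agent.Two.Lower (tateMat tateMod tateBas)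

local notation "Q̄" => AlgebraicClosure ℚ

variable {W : WeierstrassCurve ℤ} [Fact (Nat.Prime 2)]

theorem isUnit_or_eq_two_mul (N : ℕ) (x : ZMod (2 ^ N)) : IsUnit x ∨ ∃ y, x = 2 * y := by
  rcases Nat.even_or_odd x.val with ⟨k, hk⟩ | hodd
  · exact Or.inr ⟨(k : ZMod (2 ^ N)), by rw [← ZMod.natCast_zmod_val x, hk, Nat.cast_add, two_mul]⟩
  · refine Or.inl ?_
    rw [← ZMod.natCast_zmod_val x, ZMod.isUnit_iff_coprime]
    exact Nat.Coprime.pow_right _ (Nat.coprime_two_right.mpr hodd)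

/-- At an auxiliary prime the trace of Frobenius is `v + 1` modulo `2 ^ N`. -/
theorem apOfModel_eq_of_auxPrime (hΔ : W.Δ ≠ 0) {v N : ℕ} (hN : N ≠ 0)
    (hv : AuxPrime W hΔ v N) : (W.apOfModel v : ZMod (2 ^ N)) = (v : ZMod (2 ^ N)) + 1 := by
  obtain ⟨A, hA, σ, hσ, h⟩ := Lower.unipotent_entries hΔ hv.unipotent
  obtain ⟨hsq, hne⟩ := h N le_rfl
  obtain ⟨i, j, hij⟩ := hne hN
  obtain ⟨htr, hdet⟩ := Lower.frobenius_tateMod (p := 2) hΔ N hv.prime hv.good hv.ne_two hA hσ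
  generalize tateMod (p := 2) hΔ N σ = M at hsq hij htr hdet
  rw [Matrix.trace_fin_two] at htr
  rw [Matrix.det_fin_two] at hdet
  set a : ZMod (2 ^ N) := (W.apOfModel v : ZMod (2 ^ N))
  set w : ZMod (2 ^ N) := (v : ZMod (2 ^ N))
  have e00 := congrFun (congrFun hsq 0) 0
  have e01 := congrFun (congrFun hsq 0) 1
  have e10 := congrFun (congrFun hsq 1) 0
  have e11 := congrFun (congrFun hsq 1) 1
  simp [Matrix.mul_apply, Fin.sum_univ_two] at e00 e01 e10 e11
  have k01 : (a - 2) * M 0 1 = 0 := by linear_combination e01 - M 0 1 * htr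
  have k10 : (a - 2) * M 1 0 = 0 := by linear_combination e10 - M 1 0 * htr
  have k00 : (a - 2) * M 0 0 + (1 - w) = 0 := by
    linear_combination e00 - M 0 0 * htr + hdet
  have key : a - 2 = 0 := by
    rcases isUnit_or_eq_two_mul N (M 0 1) with h1 | ⟨y, hy⟩
    · exact h1.mul_left_eq_zero.1 k01
    rcases isUnit_or_eq_two_mul N (M 1 0) with h2 | ⟨y', hy'⟩
    · exact h2.mul_left_eq_zero.1 k10
    exfalso
    have hz : ∀ u : ZMod (2 ^ N), ((2 ^ (N - 1) : ℕ) : ZMod (2 ^ N)) * (2 * u) = 0 := fun u => by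
      rw [← mul_assoc, show (2 : ZMod (2 ^ N)) = ((2 : ℕ) : ZMod (2 ^ N)) by simp, ← Nat.cast_mul,
        ← pow_succ, Nat.sub_add_cancel (Nat.one_le_iff_ne_zero.mpr hN), ZMod.natCast_self, zero_mul]
    have hd : ∀ x u : ZMod (2 ^ N), x * x + 2 * u = 0 → ∃ s, x = 2 * s := fun x u hx => by
      rcases isUnit_or_eq_two_mul N x with hx' | hx'
      · exfalso
        obtain ⟨s, hs⟩ := (hx'.mul hx').exists_left_inv
        have h2 : IsUnit (2 : ZMod (2 ^ N)) :=
          isUnit_iff_exists_inv.2 ⟨-(s * u), by linear_combination hs - s * hx⟩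
        rw [show (2 : ZMod (2 ^ N)) = ((2 : ℕ) : ZMod (2 ^ N)) by simp,
          ZMod.isUnit_iff_coprime] at h2
        have := Nat.Coprime.eq_one_of_dvd h2 (dvd_pow_self 2 hN)
        omega
      · exact hx'
    obtain ⟨s, hs⟩ := hd (M 0 0 - 1) (y * M 1 0) (by rw [hy] at e00; linear_combination e00)
    obtain ⟨s', hs'⟩ := hd (M 1 1 - 1) (y * M 1 0) (by rw [hy] at e11; linear_combination e11)
    revert hij
    fin_cases i <;> fin_cases j <;> intro hij <;> refine hij ?_ <;>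
      simp only [Matrix.sub_apply, Matrix.one_apply, Fin.zero_eta, Fin.mk_one, Fin.reduceEq,
        if_true, if_false, sub_zero] <;>
      first
      | rw [hs, hz] | rw [hs', hz] | rw [hy, hz] | rw [hy', hz]
  linear_combination key + k00 - M 0 0 * key

/-- The standard residual data of the Tate module. -/
theorem exists_rigid_tateMat (hW : TwoCurve W) : ∃ R : Rigid ℤ_[2],
    (∀ σ a b, R.rb σ a b = residue ℤ_[2] (tateMat (p := 2) hW.Δ_ne_zero σ a b)) ∧
      ∃ σ, R.rb σ 0 1 ≠ 0 := by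
  classical
  set T := tateMat (p := 2) hW.Δ_ne_zero
  set rb : Gal →* M2 (ResidueField ℤ_[2]) := mapM (residue ℤ_[2]) T
  have h0 : ∀ x : ℤ_[2], PadicInt.toZModPow 1 x = 0 → residue ℤ_[2] x = 0 := fun x hx => by
    rw [← RingHom.mem_ker, PadicInt.ker_toZModPow, pow_one, ← PadicInt.maximalIdeal_eq_span_p] at hx
    exact (residue_eq_zero_iff x).2 hx
  have key : ∀ a b : Fin 2, ∃ c : Gal →₀ ℤ_[2],
      (c.sum fun σ o => o • rb σ) = Matrix.single a b 1 := by
    intro a b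
    have hmem : Matrix.single a b 1 ∈ Submodule.span (ZMod (2 ^ 1))
        (Set.range (tateMod (p := 2) hW.Δ_ne_zero 1)) := by
      rw [Lower.span_tateMod_one hW]; trivial
    obtain ⟨c, hc⟩ := (Finsupp.mem_span_range_iff_exists_finsupp).mp hmem
    refine ⟨c.mapRange (fun x => (x.val : ℤ_[2])) (by simp), ?_⟩
    rw [Finsupp.sum_mapRange_index (by simp)]
    ext i j
    set t : ℤ_[2] := if a = i ∧ b = j then 1 else 0
    have h1 := congrFun (congrFun hc i) j
    simp only [Finsupp.sum, Matrix.sum_apply, Matrix.smul_apply] at h1 ⊢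
    have h2 : PadicInt.toZModPow 1 ((∑ σ ∈ c.support, ((c σ).val : ℤ_[2]) * T σ i j) - t) = 0 := by
      rw [map_sub, sub_eq_zero, map_sum]
      refine Eq.trans (Finset.sum_congr rfl fun σ _ => ?_) (h1.trans ?_)
      · rw [map_mul, map_natCast, ZMod.natCast_zmod_val, smul_eq_mul]; rfl
      · simp only [t, Matrix.single_apply]; split_ifs <;> simp
    have h3 := h0 _ h2
    rw [map_sub, sub_eq_zero, map_sum] at h3
    refine Eq.trans (Finset.sum_congr rfl fun σ _ => ?_) (h3.trans ?_)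
    · rw [Algebra.smul_def, map_mul]; rfl
    · simp only [t, Matrix.single_apply]; split_ifs <;> simp
  obtain ⟨cX, hX⟩ := key 0 0
  obtain ⟨cY, hY⟩ := key 1 0
  refine ⟨⟨rb, cX, cY, hX, hY⟩, fun σ a b => rfl, ?_⟩
  by_contra! hall
  obtain ⟨c, hc⟩ := key 0 1
  have h1 := congrFun (congrFun hc 0) 1
  simp only [Finsupp.sum, Matrix.sum_apply, Matrix.smul_apply] at h1
  rw [Finset.sum_eq_zero fun σ _ => by rw [hall, smul_zero]] at h1
  simp at h1

theorem isCont_tateMat (hΔ : W.Δ ≠ 0) : IsCont (tateMat (p := 2) hΔ) :=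
  isCont_matOf (tateRep W 2 hΔ) (tateBas hΔ)

theorem detIsCyclotomic_tateMat (hΔ : W.Δ ≠ 0) :
    (toRep (tateMat (p := 2) hΔ) (isCont_tateMat hΔ)).DetIsCyclotomic 2 :=
  RT.Assembly.detIsCyclotomic_of_isEquiv (isEquiv_toRep_matOf (tateRep W 2 hΔ) (tateBas hΔ))
    (EC.Rep.detIsCyclotomic_tateRep hΔ)

theorem isFlatAt_tateMat (hW : TwoCurve W) :
    (toRep (tateMat (p := 2) hW.Δ_ne_zero) (isCont_tateMat hW.Δ_ne_zero)).IsFlatAt 2 :=
  RT.Assembly.isFlatAt_of_isEquiv (isEquiv_toRep_matOf (tateRep W 2 hW.Δ_ne_zero) (tateBas _))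
    (EC.Rep.isFlatAt_tateRep hW.Δ_ne_zero hW.two_not_dvd_Δ)

theorem tateMat_inertia_good (hΔ : W.Δ ≠ 0) {q : ℕ} (hq : q.Prime) (hgood : W.IsGoodPrimeFor q)
    (hq2 : q ≠ 2) {P : ValuationSubring Q̄} (hP : P.LiesOverPrime q) {σ : Gal}
    (hσ : σ ∈ P.inertiaSubgroupIn ℚ) : tateMat (p := 2) hΔ σ = 1 := by
  show LinearMap.toMatrixAlgEquiv (tateBas hΔ) ((tateRep W 2 hΔ).ρ σ) = 1
  rw [EC.Rep.isUnramifiedAt_tateRep (p := 2) hΔ hq hgood hq2 P hP σ hσ, map_one]

theorem tateMat_inertia_bad (hW : TwoCurve W) {q : ℕ} (hq : q.Prime) (hbad : (q : ℤ) ∣ W.Δ)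
    {P : ValuationSubring Q̄} (hP : P.LiesOverPrime q) {σ : Gal}
    (hσ : σ ∈ P.inertiaSubgroupIn ℚ) :
    (tateMat (p := 2) hW.Δ_ne_zero σ - 1) * (tateMat (p := 2) hW.Δ_ne_zero σ - 1) = 0 := by
  have hq2 : q ≠ 2 := fun h => hW.two_not_dvd_Δ (by rw [h] at hbad; exact hbad)
  have hu := EC.Rep.isUnipotentOnInertiaAt_tateRep (p := 2) hW.Δ_ne_zero hq hq2
    (fun h => hW.semistable q hq h.2 h.1) P hP σ hσ
  have h := LinearMap.aeval_self_charpoly ((tateRep W 2 hW.Δ_ne_zero).ρ σ)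
  rw [hu, map_pow, map_sub, map_one, Polynomial.aeval_X, sq] at h
  have h' := congrArg (LinearMap.toMatrixAlgEquiv (tateBas hW.Δ_ne_zero)) h
  rw [map_mul, map_sub, map_one, map_zero] at h'
  exact h'

theorem trace_tateMat_auxPrime (hΔ : W.Δ ≠ 0) {v N : ℕ} (hN : N ≠ 0) (hv : AuxPrime W hΔ v N)
    {P : ValuationSubring Q̄} (hP : P.LiesOverPrime v) {φ : Gal} (hφ : P.IsFrobeniusAt φ v) :
    (tateMat (p := 2) hΔ φ).trace - ((v : ℤ_[2]) + 1) ∈ Ideal.span {(2 : ℤ_[2]) ^ N} := by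
  have h := (EC.Rep.tateRep_trace_det_frobenius (p := 2) hΔ hv.prime hv.good hv.ne_two hP hφ).1
  have h' : (tateMat (p := 2) hΔ φ).trace = (W.apOfModel v : ℤ_[2]) :=
    (LinearMap.trace_eq_matrix_trace ℤ_[2] (tateBas (p := 2) hΔ) _).symm.trans h
  have e := PadicInt.ker_toZModPow (p := 2) N
  rw [Nat.cast_ofNat] at e
  rw [h', ← e, RingHom.mem_ker, map_sub, map_add, map_one, map_natCast, map_intCast,
    apOfModel_eq_of_auxPrime hΔ hN hv, sub_self]

/-- A lift of `W[2]` in some basis is conjugate to one congruent to the Tate module. -/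
theorem exists_conj_congr_tateMat (hΔ : W.Δ ≠ 0) {O : Type} [CommRing O] [IsLocalRing O]
    [Algebra ℤ_[2] O] (h2 : (2 : O) ∈ maximalIdeal O) {r : Gal →* M2 O}
    (φ : ZMod 2 →+* ResidueField O) (b : Basis (Fin 2) (ZMod 2) (residualRep W 2 hΔ).V)
    (h : ∀ σ i j, residue O (r σ i j) = φ (matRes (residualRep W 2 hΔ) b σ i j)) :
    ∃ Q : (M2 O)ˣ, ∀ σ i j,
      conjM Q r σ i j - algebraMap ℤ_[2] O (tateMat (p := 2) hΔ σ i j) ∈ maximalIdeal O := by
  classical
  obtain ⟨b₀, hb₀⟩ := RT.Lift.exists_basis_residual_tateRep (p := 2) (W := W) hΔ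
  set C : M2 (ZMod 2) := b.toMatrix b₀
  have hC : C * b₀.toMatrix b = 1 := Basis.toMatrix_mul_toMatrix_flip _ _
  have hconj : ∀ σ, matRes (residualRep W 2 hΔ) b σ =
      C * matRes (residualRep W 2 hΔ) b₀ σ * b₀.toMatrix b :=
    fun σ => (basis_toMatrix_mul_linearMap_toMatrix_mul_basis_toMatrix b b₀ b b₀
      ((residualRep W 2 hΔ).ρ σ)).symm
  let P : M2 O := C.map fun x => (x.val : O)
  have hPres : (residue O).mapMatrix P = φ.mapMatrix C := Matrix.ext fun i j => by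
    show residue O ((C i j).val : O) = φ (C i j)
    rw [map_natCast, ← map_natCast φ, ZMod.natCast_zmod_val]
  have hPu : IsUnit P := by
    rw [Matrix.isUnit_iff_isUnit_det]
    refine (residue_ne_zero_iff_isUnit _).1 ?_
    rw [RingHom.map_det, hPres, ← RingHom.map_det]
    refine (IsUnit.map φ ?_).ne_zero
    exact IsUnit.of_mul_eq_one _ (by rw [← Matrix.det_mul, hC, Matrix.det_one])
  obtain ⟨Q, hQ⟩ := hPu
  refine ⟨Q, fun σ i j => ?_⟩
  have hQi : (residue O).mapMatrix (↑Q⁻¹ : M2 O) = φ.mapMatrix (b₀.toMatrix b) := by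
    have h1 : (residue O).mapMatrix (↑Q⁻¹ : M2 O) * φ.mapMatrix C = 1 := by
      rw [← hPres, ← hQ, ← map_mul, Units.inv_mul, map_one]
    calc (residue O).mapMatrix (↑Q⁻¹ : M2 O)
        = (residue O).mapMatrix (↑Q⁻¹ : M2 O) * φ.mapMatrix (C * b₀.toMatrix b) := by
          rw [hC, map_one, mul_one]
      _ = _ := by rw [map_mul, ← mul_assoc, h1, one_mul]
  have e : (residue O).mapMatrix (conjM Q r σ) = φ.mapMatrix (matRes (residualRep W 2 hΔ) b₀ σ) := by
    have e1 : (residue O).mapMatrix (r σ) = φ.mapMatrix (matRes (residualRep W 2 hΔ) b σ) :=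
      Matrix.ext fun i j => h σ i j
    rw [conjM_apply, map_mul, map_mul, hQi, e1, hQ, hPres, ← map_mul, ← map_mul, hconj]
    congr 1
    have hC' : b₀.toMatrix b * C = 1 := Basis.toMatrix_mul_toMatrix_flip _ _
    rw [← mul_assoc, ← mul_assoc, hC', one_mul, mul_assoc, hC', mul_one]
  rw [← residue_eq_zero_iff, map_sub, sub_eq_zero]
  refine (congrFun (congrFun e i) j).trans ?_
  rw [RingHom.mapMatrix_apply, Matrix.map_apply, hb₀]
  show φ (PadicInt.toZMod (tateMat (p := 2) hΔ σ i j)) = _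
  set x := tateMat (p := 2) hΔ σ i j
  obtain ⟨s, hs⟩ : (2 : ℤ_[2]) ∣ x - ((PadicInt.toZMod x).val : ℤ_[2]) := by
    have h0 : x - ((PadicInt.toZMod x).val : ℤ_[2]) ∈ maximalIdeal ℤ_[2] := by
      rw [← PadicInt.ker_toZMod, RingHom.mem_ker, map_sub, map_natCast, ZMod.natCast_zmod_val,
        sub_self]
    rw [PadicInt.maximalIdeal_eq_span_p, Ideal.mem_span_singleton] at h0
    exact_mod_cast h0
  conv_rhs => rw [show x = ((PadicInt.toZMod x).val : ℤ_[2]) + 2 * s by rw [← hs]; ring]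
  rw [map_add, map_add, map_mul, map_mul, map_ofNat (algebraMap ℤ_[2] O),
    (residue_eq_zero_iff (2 : O)).2 h2, zero_mul, add_zero, map_natCast, map_natCast,
    ← map_natCast φ, ZMod.natCast_zmod_val]

end Fermat.Agent.Two.Congr
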