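import Fermat.Agent.RT.Assembly.Entries

/-!
# The entries of a normalised lift lie in the algebra of traces and determinants
-/

set_option autoImplicit false
set_option linter.style.haveILetI false

noncomputable section

namespace Fermat.Agent.Two.Congr

open IsLocalRing Fermat.Agent.Deform Fermat.Agent.RT

variable {O : Type} [CommRing O] [IsDomain O] [IsDiscreteValuationRing O]
  [IsAdicComplete (maximalIdeal O) O]
  {P : Type} [CommRing P] [IsLocalRing P] [Algebra O P] [Module.Finite O P]
  {W : Rigid O} {h : IsResAlg O P} {r : Gal →* M2 P}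

omit [IsDiscreteValuationRing O] [IsAdicComplete (maximalIdeal O) O] [Module.Finite O P]
  [IsLocalRing P] [IsDomain O] in
theorem mul_mem_spanRange {M M' : M2 P} (hM : M ∈ Submodule.span O (Set.range r))
    (hM' : M' ∈ Submodule.span O (Set.range r)) : M * M' ∈ Submodule.span O (Set.range r) := by
  induction hM' using Submodule.span_induction with
  | mem y hy =>
    obtain ⟨τ, rfl⟩ := hy
    induction hM using Submodule.span_induction with
    | mem x hx =>
      obtain ⟨σ, rfl⟩ := hx
      exact Submodule.subset_span ⟨σ * τ, map_mul r σ τ⟩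
    | zero => simp
    | add x y _ _ hx hy => rw [add_mul]; exact add_mem hx hy
    | smul a x _ hx => rw [smul_mul_assoc]; exact Submodule.smul_mem _ _ hx
  | zero => simp
  | add x y _ _ hx hy => rw [mul_add]; exact add_mem hx hy
  | smul a x _ hx => rw [mul_smul_comm]; exact Submodule.smul_mem _ _ hx

/-- **Traces and determinants generate the entries.** -/
theorem entry_mem (hl : Lifts W h r) (hn : IsNormal W r) (hne : ∃ σ, W.rb σ 0 1 ≠ 0)
    (J : Subalgebra O P) (htr : ∀ σ, (r σ).trace ∈ J) (hdet : ∀ σ, (r σ).det ∈ J) :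
    ∀ σ i j, r σ i j ∈ J := by
  classical
  have := Assembly.isLocalRing_subalgebra J
  have hres := Assembly.isResAlg_subalgebra h J
  have hloc := Assembly.isLocalHom_subalgebra_val J
  have := Assembly.isAdicComplete_subalgebra J hres.isLocalHom
  set S := Submodule.span O (Set.range r) with hS
  have hmul : ∀ {M M' : M2 P}, M ∈ S → M' ∈ S → M * M' ∈ S := mul_mem_spanRange
  have htrS : ∀ M ∈ S, M.trace ∈ J := fun M hM => by
    induction hM using Submodule.span_induction with
    | mem x hx => obtain ⟨σ, rfl⟩ := hx; exact htr σ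
    | zero => simp
    | add x y _ _ hx hy => rw [Matrix.trace_add]; exact add_mem hx hy
    | smul a x _ hx => rw [Matrix.trace_smul]; exact J.smul_mem hx a
  have hdetS : ∀ M ∈ S, M.det ∈ J := fun M hM => by
    induction hM using Submodule.span_induction with
    | mem x hx => obtain ⟨σ, rfl⟩ := hx; exact hdet σ
    | zero => simp
    | add x y hx' hy' hx hy =>
      have e : (x + y).det = x.det + y.det + (x.trace * y.trace - (x * y).trace) := by
        simp [Matrix.det_fin_two, Matrix.trace_fin_two, Matrix.mul_apply, Fin.sum_univ_two]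
        ring
      rw [e]
      exact add_mem (add_mem hx hy)
        (sub_mem (mul_mem (htrS x hx') (htrS y hy')) (htrS _ (hmul hx' hy')))
    | smul a x _ hx =>
      rw [Matrix.det_smul_of_tower]
      exact J.smul_mem hx _
  have hev : ∀ c : Gal →₀ O, evalC c r ∈ S := fun c =>
    sum_mem fun σ _ => Submodule.smul_mem _ _ (Submodule.subset_span ⟨σ, rfl⟩)
  obtain ⟨hX01, hX10, hY10⟩ := hn
  set X := evalC W.cX r with hX
  set x := X 0 0
  set x' := X 1 1
  have ex : augment h x = 1 := by simpa [Matrix.single_apply] using augment_X hl 0 0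
  have ex' : augment h x' = 0 := by simpa [Matrix.single_apply] using augment_X hl 1 1
  have hunit : ∀ {a : P} (ha : a ∈ J), augment h a ≠ 0 → IsUnit (⟨a, ha⟩ : J) := fun {a} ha h0 =>
    (isUnit_map_iff (J.val : J →+* P) _).1 (isUnit_of_augment_ne_zero h h0)
  have hmax : ∀ {a : P} (ha : a ∈ J), augment h a = 0 → (⟨a, ha⟩ : J) ∈ maximalIdeal J :=
    fun {a} ha h0 hu => (augment_eq_zero_iff h a).1 h0 (hu.map (J.val : J →+* P))
  set t : J := ⟨X.trace, htrS X (hev _)⟩ with ht
  set d : J := ⟨X.det, hdetS X (hev _)⟩ with hd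
  have etr : X.trace = x + x' := Matrix.trace_fin_two X
  have edet : X.det = x * x' := by rw [Matrix.det_fin_two, hX01, zero_mul, sub_zero]
  haveI : HenselianRing J (maximalIdeal J) := IsAdicComplete.henselianRing J _
  obtain ⟨l, hl₀, hl₁⟩ := HenselianRing.is_henselian (I := maximalIdeal J)
    (Polynomial.X ^ 2 - Polynomial.C t * Polynomial.X + Polynomial.C d) (by monicity!) 1
    (by
      simp only [Polynomial.eval_add, Polynomial.eval_sub, Polynomial.eval_pow, Polynomial.eval_X,
        Polynomial.eval_mul, Polynomial.eval_C]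
      refine hmax (a := ((1 : J) ^ 2 - t * 1 + d : J)) (SetLike.coe_mem _) ?_
      simp [ht, hd, etr, edet, ex, ex'])
    (by
      refine IsUnit.map _ ?_
      refine hunit (a := _) (SetLike.coe_mem _) ?_
      simp [Polynomial.derivative_pow, ht, etr, ex, ex']
      rw [← one_add_one_eq_two, AddMemClass.coe_add, OneMemClass.coe_one, map_add, map_one,
        add_sub_cancel_right]
      exact one_ne_zero)
  have el : augment h (l : P) = 1 := by
    have h0 := (augment_eq_zero_iff h ((l : P) - 1)).2 fun hu =>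
      hl₁ ((isUnit_map_iff (J.val : J →+* P) _).1 hu)
    rwa [map_sub, map_one, sub_eq_zero] at h0
  have hx : x ∈ J := by
    have h0 := congrArg (Subtype.val : J → P) hl₀
    simp [Polynomial.eval_add, Polynomial.eval_sub, ht, hd, etr, edet] at h0
    have hu : IsUnit ((l : P) - x') :=
      isUnit_of_augment_ne_zero h (by rw [map_sub, el, ex', sub_zero]; exact one_ne_zero)
    have h2 : ((l : P) - x) * ((l : P) - x') = 0 := by linear_combination h0
    rw [← sub_eq_zero.1 (hu.mul_left_eq_zero.1 h2)]
    exact l.2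
  have hx' : x' ∈ J := by
    have := sub_mem (htrS X (hev _)) hx
    rwa [etr, add_sub_cancel_left] at this
  obtain ⟨v, hv⟩ := (hunit (sub_mem hx hx') (by
    rw [map_sub, ex, ex', sub_zero]; exact one_ne_zero)).exists_left_inv
  have hv' : (v : P) * (x - x') = 1 := congrArg Subtype.val hv
  have h00 : ∀ M ∈ S, M 0 0 ∈ J := fun M hM => by
    have e : M 0 0 = (v : P) * ((M * X).trace - x' * M.trace) := by
      simp [Matrix.trace_fin_two, Matrix.mul_apply, Fin.sum_univ_two, hX01, hX10, x, x']
        at hv' ⊢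
      linear_combination (-(M 0 0)) * hv'
    rw [e]
    exact mul_mem v.2 (sub_mem (htrS _ (hmul hM (hev _))) (mul_mem hx' (htrS M hM)))
  have h11 : ∀ M ∈ S, M 1 1 ∈ J := fun M hM => by
    have := sub_mem (htrS M hM) (h00 M hM)
    rwa [Matrix.trace_fin_two, add_sub_cancel_left] at this
  have h01 : ∀ M ∈ S, M 0 1 ∈ J := fun M hM => by
    set Y := evalC W.cY r with hY
    have e : M 0 1 = (M * Y) 0 0 - M 0 0 * Y 0 0 := by
      simp [Matrix.mul_apply, Fin.sum_univ_two, hY10]
    rw [e]
    exact sub_mem (h00 _ (hmul hM (hev _))) (mul_mem (h00 M hM) (h00 Y (hev _)))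
  obtain ⟨σ₀, hσ₀⟩ := hne
  have hZ : r σ₀ ∈ S := Submodule.subset_span ⟨σ₀, rfl⟩
  obtain ⟨w, hw⟩ := (hunit (h01 _ hZ) (by rw [hl]; exact hσ₀)).exists_left_inv
  have hw' : (w : P) * r σ₀ 0 1 = 1 := congrArg Subtype.val hw
  have h10 : ∀ M ∈ S, M 1 0 ∈ J := fun M hM => by
    have e : M 1 0 = (w : P) * ((M * r σ₀) 1 1 - M 1 1 * r σ₀ 1 1) := by
      simp [Matrix.mul_apply, Fin.sum_univ_two]
      linear_combination (-(M 1 0)) * hw'
    rw [e]
    exact mul_mem w.2 (sub_mem (h11 _ (hmul hM hZ)) (mul_mem (h11 M hM) (h11 _ hZ)))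
  intro σ i j
  have hσ : r σ ∈ S := Submodule.subset_span ⟨σ, rfl⟩
  fin_cases i <;> fin_cases j
  exacts [h00 _ hσ, h01 _ hσ, h10 _ hσ, h11 _ hσ]

end Fermat.Agent.Two.Congr
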